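import Fermat.Agent.P2.LocQ.Main
import Fermat.Agent.P2.Full.Main

set_option autoImplicit false
set_option linter.style.haveILetI false
set_option linter.unusedSectionVars false

/-!
# The unconditional forms of the local statements at `q ∥ N`

* `fullSupport`: SUPPORT for the full Hecke algebra;
* `relation_U`, `stRel_of_U`, and the matrix forms.
-/

noncomputable section

open Polynomial IsLocalRing ModularCurve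

namespace Fermat.Agent.P2.LocQ

open Fermat.Agent.DefRing

local notation "Qbar" => AlgebraicClosure ℚ
local notation "Γℚ" => (AlgebraicClosure ℚ ≃ₐ[ℚ] AlgebraicClosure ℚ)

/-- **Full support** holds for all levels. -/
theorem fullSupport (N : ℕ) [NeZero N] : FullSupport N := Full.exists_lattice N

variable {N : ℕ} [NeZero N] {p q : ℕ} {S0 : Set ℕ} {S : Finset ℕ}
  {𝒪 : Type} [CommRing 𝒪] [IsDomain 𝒪] [IsDiscreteValuationRing 𝒪] [Finite (ResidueField 𝒪)]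
  [CharZero 𝒪]

/-- **(R)** `χ(U_q)² - tr ρ(φ) χ(U_q) + q = 0` for Frobenius elements at places over `q ∥ N`,
`q ≠ p`. -/
theorem relation_U (hp : p.Prime) (hq : q.Prime) (hqp : q ≠ p) (hqN : q ∣ N)
    (hqN2 : ¬ q ^ 2 ∣ N) (hq0 : q ∉ S0) (hS0 : ∀ ℓ ∈ S0, ℓ ∈ S)
    (hp𝒪 : (p : 𝒪) ∈ maximalIdeal 𝒪) (χ : CuspForm.heckeAlgebra N 2 S0 →+* 𝒪)
    (ρ : GaloisRepAdic 𝒪)
    (hρ : ∀ (ℓ : ℕ) (hℓ : ℓ.Prime) (hℓN : ¬ ℓ ∣ N) (hℓ0 : ℓ ∉ S0), ℓ ∉ S →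
      ∀ A : ValuationSubring Qbar, A.LiesOverPrime ℓ → ∀ σ : Γℚ, A.IsFrobeniusAt σ ℓ →
        LinearMap.charpoly (ρ.ρ σ) =
          X ^ 2 - C (χ (CuspForm.heckeAlgebra.T hℓ hℓN hℓ0)) * X + C (ℓ : 𝒪))
    {P : ValuationSubring Qbar} (hP : P.LiesOverPrime q) {φ : Γℚ} (hφ : P.IsFrobeniusAt φ q) :
    χ (CuspForm.heckeAlgebra.U hq hqN hq0) ^ 2 -
      LinearMap.trace 𝒪 ρ.V (ρ.ρ φ) * χ (CuspForm.heckeAlgebra.U hq hqN hq0) + (q : 𝒪) = 0 :=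
  relation_U_of_full (fullSupport N) hp hq hqp hqN hqN2 hq0 hS0 hp𝒪 χ ρ hρ hP hφ

/-- **(i)** If `χ(U_q)² = 1`, `q ∥ N`, `q ≠ p`, then the Steinberg relation holds with sign
`χ(U_q)` at every place over `q`. -/
theorem stRel_of_U (hp : p.Prime) (hq : q.Prime) (hqp : q ≠ p) (hqN : q ∣ N)
    (hqN2 : ¬ q ^ 2 ∣ N) (hq0 : q ∉ S0) (hS0 : ∀ ℓ ∈ S0, ℓ ∈ S)
    (hp𝒪 : (p : 𝒪) ∈ maximalIdeal 𝒪) (χ : CuspForm.heckeAlgebra N 2 S0 →+* 𝒪)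
    (ρ : GaloisRepAdic 𝒪)
    (hρ : ∀ (ℓ : ℕ) (hℓ : ℓ.Prime) (hℓN : ¬ ℓ ∣ N) (hℓ0 : ℓ ∉ S0), ℓ ∉ S →
      ∀ A : ValuationSubring Qbar, A.LiesOverPrime ℓ → ∀ σ : Γℚ, A.IsFrobeniusAt σ ℓ →
        LinearMap.charpoly (ρ.ρ σ) =
          X ^ 2 - C (χ (CuspForm.heckeAlgebra.T hℓ hℓN hℓ0)) * X + C (ℓ : 𝒪))
    (he : χ (CuspForm.heckeAlgebra.U hq hqN hq0) * χ (CuspForm.heckeAlgebra.U hq hqN hq0) = 1)
    {P : ValuationSubring Qbar} (hP : P.LiesOverPrime q) :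
    StRel P q (χ (CuspForm.heckeAlgebra.U hq hqN hq0)) (fun g => LinearMap.det (ρ.ρ g))
      (fun g => ρ.ρ g) :=
  stRel_of_U_of_full (fullSupport N) hp hq hqp hqN hqN2 hq0 hS0 hp𝒪 χ ρ hρ he hP

/-- The matrix form of `stRel_of_U`. -/
theorem stRel_of_U_matOf (hp : p.Prime) (hq : q.Prime) (hqp : q ≠ p) (hqN : q ∣ N)
    (hqN2 : ¬ q ^ 2 ∣ N) (hq0 : q ∉ S0) (hS0 : ∀ ℓ ∈ S0, ℓ ∈ S)
    (hp𝒪 : (p : 𝒪) ∈ maximalIdeal 𝒪) (χ : CuspForm.heckeAlgebra N 2 S0 →+* 𝒪)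
    (ρ : GaloisRepAdic 𝒪)
    (hρ : ∀ (ℓ : ℕ) (hℓ : ℓ.Prime) (hℓN : ¬ ℓ ∣ N) (hℓ0 : ℓ ∉ S0), ℓ ∉ S →
      ∀ A : ValuationSubring Qbar, A.LiesOverPrime ℓ → ∀ σ : Γℚ, A.IsFrobeniusAt σ ℓ →
        LinearMap.charpoly (ρ.ρ σ) =
          X ^ 2 - C (χ (CuspForm.heckeAlgebra.T hℓ hℓN hℓ0)) * X + C (ℓ : 𝒪))
    (he : χ (CuspForm.heckeAlgebra.U hq hqN hq0) * χ (CuspForm.heckeAlgebra.U hq hqN hq0) = 1)
    {P : ValuationSubring Qbar} (hP : P.LiesOverPrime q) (b : Module.Basis (Fin 2) 𝒪 ρ.V) :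
    StRel P q (χ (CuspForm.heckeAlgebra.U hq hqN hq0)) (fun g => (matOf ρ b g).det)
      (fun g => matOf ρ b g) :=
  stRel_matOf b (stRel_of_U hp hq hqp hqN hqN2 hq0 hS0 hp𝒪 χ ρ hρ he hP)

end Fermat.Agent.P2.LocQ
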