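import Fermat.Agent.DR.S36.Level2Graded
import Fermat.Agent.DR.Mod.Kronecker

set_option autoImplicit false
set_option linter.style.haveILetI false
set_option linter.unusedSectionVars false

/-!
# The norm identity behind `U_q + w_q = β^* α_*` at `q ∥ N`

For `f ∈ F_{Mq}`, `q ∤ M`: `N_α(β f) · w f = β (N_α f)`.
-/

noncomputable section

open AlgebraicCurve ModularCurve IntermediateField
open Fermat.Agent.S28 Fermat.Agent.JRED Fermat.Agent.Jan.HeckeInputs
open Fermat.Agent.JRED.ES (inclL inclL_apply jB)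
open Fermat.Agent.Jan.HeckeNorm (normAlong)
open Fermat.Agent.DR.Mod (IsAL qExpand_normAlong_alpha)
open Fermat.Agent.DR.S36

namespace Fermat.Agent.P2.LocQ

variable {L : Type} [Field L] [Algebra ℚ L] [IsAlgClosed L] {M q : ℕ} [NeZero M] [NeZero q]
  {w : laurentBaseChange L (modularFunctionFieldFull (M * q)) ≃ₐ[L]
      laurentBaseChange L (modularFunctionFieldFull (M * q))}

/-- **The norm identity** `N_α(β f) · w f = β (N_α f)`. -/
theorem norm_beta_mul (hq : q.Prime) (hqM : ¬ q ∣ M) (hw : IsAL w)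
    (f : laurentBaseChange L (modularFunctionFieldFull (M * q))) :
    normAlong (heckeAlphaBar L (M * q) q) (heckeBetaBar L (M * q) q f) * w f =
      heckeBetaBar L M q (normAlong (heckeAlphaBar L M q) f) := by
  haveI : Fact q.Prime := ⟨hq⟩
  haveI : CharZero L := charZero_of_injective_algebraMap (algebraMap ℚ L).injective
  haveI : NeZero ((q : ℕ) : L) := ⟨Nat.cast_ne_zero.mpr hq.ne_zero⟩
  obtain ⟨ζ', hζ'⟩ := HasEnoughRootsOfUnity.exists_primitiveRoot L q
  obtain ⟨ζ, rfl⟩ := hζ'.isUnit hq.ne_zero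
  have hζ : IsPrimitiveRoot ζ q := IsPrimitiveRoot.coe_units_iff.mp hζ'
  have hex : ∀ b : Fin (q - 1), ∃ ι : laurentBaseChange L (modularFunctionFieldFull (M * q * q))
      →+* LaurentSeries L, IsMidB w (ζ ^ ((b : ℕ) + 1)) ι := by
    intro b
    refine exists_isMidB hqM hw ?_ (root_ne_one hζ b)
    rw [← pow_mul, mul_comm, pow_mul, hζ.pow_eq_one, one_pow]
  choose ι hι using hex
  have hdeg : finrankAlong L (heckeAlphaBar L M q) = q + 1 :=
    Fermat.Agent.JRED.AL.finrankAlong_alpha_of_not_dvd L M q hq hqM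
  apply Subtype.ext
  rw [MulMemClass.coe_mul, map_normAlong_alpha hqM hw hζ hι, coe_heckeBetaBar, coe_heckeBetaBar,
    qExpand_normAlong_alpha hq hw hdeg hζ f, mul_assoc]
  congr 1
  have h1 : ∀ b : Fin (q - 1), ι b (heckeBetaBar L (M * q) q f) =
      twist (ζ ^ ((b : ℕ) + 1)) (w f : LaurentSeries L) := fun b => (hι b).beta f
  simp only [h1]
  have h2 : ∀ g : ℕ → LaurentSeries L, (∏ b : Fin (q - 1), g ((b : ℕ) + 1)) * g 0 =
      ∏ b : Fin q, g b := by
    intro g
    rw [Fin.prod_univ_eq_prod_range (fun i => g (i + 1)), Fin.prod_univ_eq_prod_range g,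
      ← Finset.prod_range_succ']
    rw [Nat.sub_add_cancel hq.one_le]
  have h3 := h2 fun b => twist (ζ ^ b) (w f : LaurentSeries L)
  rw [← h3, pow_zero]
  congr 1
  rw [twist_one]

end Fermat.Agent.P2.LocQ
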