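import Fermat.Agent.DR.ModGal.SwapInst
import Fermat.Agent.DR.ModGal.Unipotent
import Fermat.Agent.DR.ModGal.ALJ
import Fermat.Agent.DR.Mod.KroneckerModular
import Fermat.Agent.P2.LocQ.NormId

set_option autoImplicit false
set_option linter.unusedSectionVars false
set_option linter.style.haveILetI false

/-!
# The relation between `U_q` and Frobenius at `q` on the prime-to-`q` torsion of `J₀(Mq)`

`(φ U - q)² (U - φ) = 0` on `J₀(Mq)[m]`, `q ∤ M m`.
-/

noncomputable section

open AlgebraicCurve ModularCurve IntermediateField Fermat.Agent.RR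
open Fermat.Agent.JRED Fermat.Agent.DR Fermat.Agent.DR.Mod Fermat.Agent.DR.ModGal
open Fermat.Agent.JRED.ESGalois Fermat.Agent.JRED.ESSemi
open Fermat.Agent.Jan.HeckeInputs
open Fermat.Agent.Jan.HeckeNorm (normAlong normAlong_ne_zero nsmul_correspondence_eq_ord
  pullbackAlong_eq_ord pushforwardAlong_eq_ord heckeOperatorBar_mk)

namespace Fermat.Agent.P2.LocQ

section RootCls

variable {K F k F₁ F₂ : Type*} [Field K] [Field F] [Algebra K F] [Field k] [Field F₁] [Field F₂]
  [Algebra k F₁] [Algebra k F₂] [IsAlgClosed K] [IsAlgClosed k] [FunctionField K F]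
  [FunctionField k F₁] [FunctionField k F₂] {A : ValuationSubring K} {π : A →+* k}

theorem red_div_left {R : RedDatum K F k F₁ A π} (hπ : Function.Surjective π) {a b : F}
    {u v : F₁} (h : R.Red a (u * v)) (h' : R.Red b u) (hu : u ≠ 0) : R.Red (a / b) v := by
  have h9 := RedDatum.div hπ h h' hu
  rwa [mul_div_cancel_left₀ _ hu] at h9

/-- `x` has a normalised root divisor with reductions `u`. -/
def RootCls (X : NodalDatum K F k F₁ F₂ A π) (m : ℕ) (x : Pic0 K F) (u : F₁ × F₂) : Prop :=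
  ∃ (D : Divisor.degZero (K := K) (F := F)) (f : F), Pic0.mk D = x ∧
    IsRootDiv X m (D : Divisor K F) f u

variable {X : NodalDatum K F k F₁ F₂ A π} {m : ℕ} {x x' : Pic0 K F} {u u' : F₁ × F₂}

theorem RootCls.exists_of_torsion (X : NodalDatum K F k F₁ F₂ A π) (hm : 0 < m) (hx : m • x = 0) :
    ∃ u, RootCls X m x u := by
  obtain ⟨D, f, u, h, H⟩ := exists_rep X hm hx
  exact ⟨u, D, f, h, H⟩

theorem RootCls.add (h : RootCls X m x u) (h' : RootCls X m x' u') :
    RootCls X m (x + x') (u * u') := by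
  obtain ⟨D, f, rfl, H⟩ := h
  obtain ⟨D', f', rfl, H'⟩ := h'
  exact ⟨D + D', f * f', rfl, H.mul H'⟩

theorem RootCls.sub (hπ : Function.Surjective π) (h : RootCls X m x u)
    (h' : RootCls X m x' u') : RootCls X m (x - x') (u.1 / u'.1, u.2 / u'.2) := by
  obtain ⟨D, f, rfl, H⟩ := h
  obtain ⟨D', f', rfl, H'⟩ := h'
  exact ⟨D - D', f * f'⁻¹, rfl, H.sub hπ H'⟩

theorem RootCls.nsmul (hm : 0 < m) (h : RootCls X m x u) (n : ℕ) :
    RootCls X m (n • x) (u ^ n) := by
  induction n with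
  | zero =>
    rw [zero_nsmul, pow_zero]
    refine ⟨0, 1, rfl, hm, one_ne_zero, fun P => ?_, Red₂.one, one_ne_zero, one_ne_zero⟩
    simp
  | succ n ih =>
    rw [succ_nsmul, pow_succ]
    exact ih.add h

theorem semi_smul_ne_zero {K F : Type*} [Field K] [Field F] [Algebra K F]
    (g : SemilinearAut K F) {u : F} (hu : u ≠ 0) : g • u ≠ 0 := by
  rw [SemilinearAut.smul_def]
  exact (map_ne_zero_iff _ (SemilinearAut.toRingAut g).injective).mpr hu

theorem RootCls.semi (g : SemilinearAut K F) (g₁ : SemilinearAut k F₁) (g₂ : SemilinearAut k F₂)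
    (h1 : ∀ f u, X.R₁.Red f u → X.R₁.Red (g • f) (g₁ • u))
    (h2 : ∀ f u, X.R₂.Red f u → X.R₂.Red (g • f) (g₂ • u)) (h : RootCls X m x u) :
    RootCls X m (g • x) (g₁ • u.1, g₂ • u.2) := by
  obtain ⟨D, f, rfl, H⟩ := h
  exact ⟨SemilinearAut.degZeroSMulHom g D, g • f, rfl, H.pos, semi_smul_ne_zero _ H.ne_zero,
    smul_div_eq _ H.div_eq, ⟨h1 _ _ H.red.1, h2 _ _ H.red.2⟩, semi_smul_ne_zero _ H.ne₁,
    semi_smul_ne_zero _ H.ne₂⟩

theorem nsmul_eq_zero_of_root {D : Divisor.degZero (K := K) (F := F)} {f : F} (hf : f ≠ 0)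
    (h : ∀ P, (m : ℤ) * (D : Divisor K F) P = P.ord f) : m • Pic0.mk D = 0 := by
  have h3 : m • Pic0.mk D = Pic0.mk (m • D) := rfl
  rw [h3, pic0_mk_eq_zero_iff]
  refine ⟨f, hf, fun P => ?_⟩
  rw [← h]
  change (m • (D : Divisor K F)) P = _
  rw [Finsupp.smul_apply, nsmul_eq_mul]

omit [IsAlgClosed K] [FunctionField K F] in
/-- orders of `β (N_α f)` if `m D = div f` and `α_* D = div g` -/
theorem ord_beta_norm {G : Type*} [Field G] [Algebra K G] [HasPrincipalDivisors K F]
    (α β : G →ₐ[K] F) (hα : α.toRingHom.IsIntegral) (hβ : β.toRingHom.IsIntegral)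
    (hfin : FiniteAlong K α) (hN : NormFormulaAlong K α hfin) {D : Divisor K F} {f : F}
    (hf : f ≠ 0) (hD : ∀ P, (m : ℤ) * D P = P.ord f) {g : G}
    (hdiv : ∀ Q, Divisor.pushforwardAlong α hα D Q = Q.ord g) (P : Place K F) :
    P.ord (β (normAlong α f)) = m * P.ord (β g) := by
  have e1 : ∀ Q : Place K G, (m • Divisor.pushforwardAlong α hα D) Q =
      Q.ord (normAlong α f) := by
    intro Q
    rw [← map_nsmul]
    refine pushforwardAlong_eq_ord _ _ hfin hN hf (fun R => ?_) Q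
    rw [Finsupp.smul_apply, nsmul_eq_mul, hD]
  have e2 : ∀ Q : Place K G, (m • Divisor.pushforwardAlong α hα D) Q = Q.ord (g ^ m) := by
    intro Q
    rw [Finsupp.smul_apply, nsmul_eq_mul, hdiv, ord_pow]
  have e3 := pullbackAlong_eq_ord β hβ e1 P
  have e4 := pullbackAlong_eq_ord β hβ e2 P
  rw [← e3, e4, map_pow, ord_pow]

omit [IsAlgClosed K] [FunctionField K F] in
theorem ord_add_of_mul (hm : 0 < m) {D' D'' : Divisor K F} {a b c d : F} (ha : a ≠ 0) (hb : b ≠ 0)
    (h : a * b = c) (hD' : ∀ P, (m : ℤ) * D' P = P.ord a) (hD'' : ∀ P, (m : ℤ) * D'' P = P.ord b)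
    (hc : ∀ P : Place K F, P.ord c = m * P.ord d) (P : Place K F) :
    (D' + D'') P = P.ord d := by
  have hm0 : (m : ℤ) ≠ 0 := by exact_mod_cast hm.ne'
  refine mul_left_cancel₀ hm0 ?_
  rw [← hc, ← h, P.ord_mul ha hb, Finsupp.add_apply, mul_add, hD', hD'']

theorem RootCls.ne₁ (h : RootCls X m x u) : u.1 ≠ 0 := by
  obtain ⟨D, f, rfl, H⟩ := h
  exact H.ne₁

theorem RootCls.ne₂ (h : RootCls X m x u) : u.2 ≠ 0 := by
  obtain ⟨D, f, rfl, H⟩ := h
  exact H.ne₂

end RootCls

section Modular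

local notation "Qbar" => AlgebraicClosure ℚ
local notation "Γℚ" => (AlgebraicClosure ℚ ≃ₐ[ℚ] AlgebraicClosure ℚ)

variable {A : ValuationSubring Qbar} {k : Type} [Field k] {π : A →+* k}
  {M q : ℕ} [NeZero M] [hq : Fact q.Prime] [CharP k q] [ExpChar k q] [PerfectRing k q]
  {w : laurentBaseChange Qbar (modularFunctionFieldFull (M * q)) ≃ₐ[Qbar]
      laurentBaseChange Qbar (modularFunctionFieldFull (M * q))}
  [FunctionField Qbar (modularFunctionFieldBar (M * q))]
  [FunctionField Qbar (modularFunctionFieldBar M)]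
  [FunctionField k (modularFunctionFieldFullC k M)] [IsAlgClosed k]

/-- The reductions of the root function of `U_q x`. -/
theorem red_norm_U (S : Setup π w) (hqM : ¬ q ∣ M) (hD : DegreeInput M k)
    {f : modularFunctionFieldBar (M * q)} {u₁ u₂ : modularFunctionFieldFullC k M}
    (hf : f ≠ 0) (h1 : (redOne S).Red f u₁) (h2 : (redTwo S).Red f u₂) (hu1 : u₁ ≠ 0)
    (hu2 : u₂ ≠ 0) :
    (redOne S).Red (normAlong (heckeAlphaBar Qbar (M * q) q) (heckeBetaBar Qbar (M * q) q f))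
        (PhiFull k q M u₁ * u₂ ^ (q - 1)) ∧
      (redTwo S).Red (normAlong (heckeAlphaBar Qbar (M * q) q) (heckeBetaBar Qbar (M * q) q f))
        (coeffSemi M (frobeniusEquiv k q) • u₂) := by
  have hid := norm_beta_mul hq.out hqM S.al f
  have hwf : w f ≠ 0 := (map_ne_zero_iff _ w.injective).mpr hf
  have hN : normAlong (heckeAlphaBar Qbar (M * q) q) (heckeBetaBar Qbar (M * q) q f) =
      heckeBetaBar Qbar M q (normAlong (heckeAlphaBar Qbar M q) f) / w f := by
    rw [← hid, mul_div_cancel_right₀ _ hwf]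
  have h3 := kron_alpha S (kHyp_of_setup S hqM) hD f 1 1 u₁ u₂
    (by rw [map_one, one_mul]; exact h1) (by rw [map_one, one_mul]; exact h2)
  rw [one_pow, mul_one, map_one, one_mul] at h3
  have h4 := (hD.redDatum_iff S.surj).mp h3
  have h5 : (redOne S).Red (heckeBetaBar Qbar M q (normAlong (heckeAlphaBar Qbar M q) f))
      (PhiFull k q M (u₁ * coeffSemi M (frobeniusEquiv k q) • u₂)) := red1_beta h4
  have h6 : (redTwo S).Red (heckeBetaBar Qbar M q (normAlong (heckeAlphaBar Qbar M q) f))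
      (u₁ * coeffSemi M (frobeniusEquiv k q) • u₂) := red2_beta S.al h4
  have h7 : (redOne S).Red (w f) u₂ := h2
  have h8 : (redTwo S).Red (w f) u₁ := by
    rw [redTwo_red, S.al.involutive hq.out]
    exact h1
  rw [hN]
  constructor
  · have h9 := RedDatum.div S.surj h5 h7 hu2
    have e : PhiFull k q M (u₁ * coeffSemi M (frobeniusEquiv k q) • u₂) / u₂ =
        PhiFull k q M u₁ * u₂ ^ (q - 1) := by
      rw [map_mul, PhiFull_coeffSemi, div_eq_iff hu2, mul_assoc, ← pow_succ,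
        Nat.sub_add_cancel hq.out.one_le]
    rwa [e] at h9
  · exact red_div_left S.surj h6 h8 hu1

variable {X : NodalDatum Qbar (modularFunctionFieldBar (M * q)) k
      (modularFunctionFieldFullC k M) (modularFunctionFieldFullC k M) A π}

/-- the orders of the root function of `U_q x` -/
theorem hecke_div_eq
    [HasPrincipalDivisors Qbar (laurentBaseChange Qbar (modularFunctionFieldFull (M * q * q)))]
    {D : Divisor Qbar (modularFunctionFieldBar (M * q))}
    {f : modularFunctionFieldBar (M * q)} (hf : f ≠ 0) {m : ℕ}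
    (h : ∀ P, (m : ℤ) * D P = P.ord f) (P : Place Qbar (modularFunctionFieldBar (M * q))) :
    (m : ℤ) * heckeDivBar (heckeAlphaBarIntegral Qbar (M * q) q
        Fermat.Agent.Jan.DegreeWiring.jAlg)
      (heckeBetaBarIntegral Qbar (M * q) q Fermat.Agent.Jan.DegreeWiring.jAlg) D P =
      P.ord (normAlong (heckeAlphaBar Qbar (M * q) q) (heckeBetaBar Qbar (M * q) q f)) := by
  haveI := isFF1_modular Qbar Fermat.Agent.Jan.DegreeWiring.jAlg (M * q)
  have hfin := finiteAlong_heckeAlphaBar Qbar (M * q) q Fermat.Agent.Jan.DegreeWiring.jAlg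
  exact nsmul_correspondence_eq_ord _ _ _ _ hfin
    (Fermat.Agent.Jan.RelFundamental.normFormulaAlong (heckeAlphaBar Qbar (M * q) q) hfin) hf h P

theorem RootCls.hecke (S : Setup π w) (hqM : ¬ q ∣ M) (hD : DegreeInput M k)
    (h1 : X.R₁ = redOne S) (h2 : X.R₂ = redTwo S) {m : ℕ} {x : JZero (M * q)}
    {u : modularFunctionFieldFullC k M × modularFunctionFieldFullC k M}
    (h : RootCls X m x u) :
    RootCls X m (heckeOperatorBar (M * q) ⟨q, hq.out⟩ x : JZero (M * q))
      (PhiFull k q M u.1 * u.2 ^ (q - 1), coeffSemi M (frobeniusEquiv k q) • u.2) := by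
  obtain ⟨D, f, rfl, H⟩ := h
  haveI := hasPrincipalDivisors_modular Qbar Fermat.Agent.Jan.DegreeWiring.jAlg (M * q * q)
  obtain ⟨hdeg, e⟩ := heckeOperatorBar_mk Fermat.Agent.Jan.DegreeWiring.jAlg (M * q)
    ⟨q, hq.out⟩ D
  have hred := red_norm_U S hqM hD H.ne_zero (by rw [← h1]; exact H.red.1)
    (by rw [← h2]; exact H.red.2) H.ne₁ H.ne₂
  have hn1 : PhiFull k q M u.1 * u.2 ^ (q - 1) ≠ 0 :=
    mul_ne_zero ((map_ne_zero_iff _ (PhiFull k q M).injective).mpr H.ne₁) (pow_ne_zero _ H.ne₂)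
  refine ⟨⟨_, hdeg⟩, normAlong (heckeAlphaBar Qbar (M * q) q) (heckeBetaBar Qbar (M * q) q f),
    e.symm, H.pos, ?_, fun P => hecke_div_eq H.ne_zero H.div_eq P, ?_, hn1,
    semi_smul_ne_zero _ H.ne₂⟩
  · exact RedDatum.ne_zero_of_red hred.1 hn1
  · constructor
    · rw [h1]; exact hred.1
    · rw [h2]; exact hred.2

theorem RootCls.galois (S : Setup π w) (h1 : X.R₁ = redOne S) (h2 : X.R₂ = redTwo S)
    {σ : Γℚ} {τ : k ≃+* k} (hτ : IsResidual π σ τ) {m : ℕ} {x : JZero (M * q)}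
    {u : modularFunctionFieldFullC k M × modularFunctionFieldFullC k M}
    (h : RootCls X m x u) :
    RootCls X m (σ • x : JZero (M * q)) (coeffSemi M τ • u.1, coeffSemi M τ • u.2) :=
  RootCls.semi (arithmeticGalois (modularFunctionFieldFull (M * q)) σ) _ _
    (fun f u h => by rw [h1] at h ⊢; exact redOne_galois S hτ h)
    (fun f u h => by rw [h2] at h ⊢; exact redTwo_galois hq.out S hτ h) h

theorem alphaPush_torus (S : Setup π w) (hqM : ¬ q ∣ M) (hD : DegreeInput M k)
    (hgood : GoodReduction M k) (h1 : X.R₁ = redOne S) (h2 : X.R₂ = redTwo S) {m : ℕ}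
    (hmk : (m : k) ≠ 0) {x : JZero (M * q)} (hmx : m • x = 0) (h : InTorus X m x) :
    alphaPush M q x = 0 := by
  obtain ⟨r, hr⟩ := exists_placeRed hD S.surj hgood
  have hspec := spec_alphaPush hqM hD h1 h2 hr h.spec
  refine redPic_torsion hD S.surj hgood hr hmk ?_ ?_
  · rw [← map_nsmul, hmx, map_zero]
  · rw [hspec, zero_add]
    exact smul_zero (A := Pic0 k (modularFunctionFieldFullC k M)) (frobSemi k M q)

/-- `U_q = - w_q` on the toric part. -/
theorem hecke_torus (S : Setup π w) (hqM : ¬ q ∣ M) (hD : DegreeInput M k)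
    (hgood : GoodReduction M k) (h1 : X.R₁ = redOne S) (h2 : X.R₂ = redTwo S) {m : ℕ}
    (hmk : (m : k) ≠ 0) {x : JZero (M * q)} (h : InTorus X m x) :
    heckeOperatorBar (M * q) ⟨q, hq.out⟩ x = -wJ w x := by
  have hmx : m • x = 0 := by
    obtain ⟨D, f, rfl, H⟩ := h
    exact nsmul_eq_zero_of_root H.ne_zero H.div_eq
  have ha := alphaPush_torus S hqM hD hgood h1 h2 hmk hmx h
  obtain ⟨D, f, rfl, H⟩ := h
  rw [alphaPush_mk, pic0_mk_eq_zero_iff] at ha
  obtain ⟨g, hg, hdiv⟩ := ha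
  haveI := hasPrincipalDivisors_modular Qbar Fermat.Agent.Jan.DegreeWiring.jAlg (M * q * q)
  obtain ⟨hdeg, e⟩ := heckeOperatorBar_mk Fermat.Agent.Jan.DegreeWiring.jAlg (M * q)
    ⟨q, hq.out⟩ D
  haveI := isFF1_modular Qbar Fermat.Agent.Jan.DegreeWiring.jAlg M
  have hid := norm_beta_mul hq.out hqM S.al f
  have hwf : w f ≠ 0 := (map_ne_zero_iff _ w.injective).mpr H.ne_zero
  have hfin := finiteAlong_heckeAlphaBar Qbar M q Fermat.Agent.Jan.DegreeWiring.jAlg
  have hNf : normAlong (heckeAlphaBar Qbar M q) f ≠ 0 := normAlong_ne_zero _ hfin H.ne_zero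
  have hβN : heckeBetaBar Qbar M q (normAlong (heckeAlphaBar Qbar M q) f) ≠ 0 :=
    (map_ne_zero_iff _ (heckeBetaBar Qbar M q).injective).mpr hNf
  have hN' : normAlong (heckeAlphaBar Qbar (M * q) q) (heckeBetaBar Qbar (M * q) q f) ≠ 0 := by
    intro h0
    rw [h0, zero_mul] at hid
    exact hβN hid.symm
  have hβg : heckeBetaBar Qbar M q g ≠ 0 :=
    (map_ne_zero_iff _ (heckeBetaBar Qbar M q).injective).mpr hg
  have key := ord_add_of_mul H.pos hN' hwf hid (fun P => hecke_div_eq H.ne_zero H.div_eq P)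
    (smul_div_eq (SemilinearAut.ofAlgAut w) H.div_eq)
    (ord_beta_norm (heckeAlphaBar Qbar M q) (heckeBetaBar Qbar M q) _
      (heckeBetaBarIntegral Qbar M q Fermat.Agent.Jan.DegreeWiring.jAlg) hfin
      (Fermat.Agent.Jan.RelFundamental.normFormulaAlong _ hfin) H.ne_zero H.div_eq hdiv)
  have hw1 : wJ w (Pic0.mk D : JZero (M * q)) =
    (Pic0.mk (SemilinearAut.degZeroSMulHom (SemilinearAut.ofAlgAut w) D) : JZero (M * q)) := rfl
  rw [e, hw1, eq_neg_iff_add_eq_zero]
  have hadd : ∀ D₁ D₂ : Divisor.degZero (K := Qbar) (F := modularFunctionFieldBar (M * q)),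
    Pic0.mk D₁ + Pic0.mk D₂ = Pic0.mk (D₁ + D₂) := fun _ _ => rfl
  rw [hadd, pic0_mk_eq_zero_iff]
  exact ⟨heckeBetaBar Qbar M q g, hβg, key⟩

theorem coeffSemi_PhiFull (u : modularFunctionFieldFullC k M) :
    coeffSemi M (frobeniusEquiv k q) • PhiFull k q M u = u ^ q := by
  rw [← PhiFull_coeffSemi]
  refine Subtype.ext ?_
  rw [coe_frob_smul, coe_PhiFull, coe_PhiFull, coe_frob_smul, coeffMap_qExpand]

/-- **The main relation**, in terms of a modular nodal datum. -/
theorem relation_of_datum (S : Setup π w) (hqM : ¬ q ∣ M) (hD : DegreeInput M k)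
    (hgood : GoodReduction M k) (h1 : X.R₁ = redOne S) (h2 : X.R₂ = redTwo S)
    (hx : ∃ a : A, X.x = Fermat.Agent.JRED.jL Qbar (M * q) - algebraMap Qbar _ a ∧
      X.x₁ = jRed k M - algebraMap k _ (π a) ∧
      X.x₂ = jRed k M ^ q - algebraMap k _ (π a))
    {σ : Γℚ} (hσ : A.IsFrobeniusAt σ q) {m : ℕ} (hmk : (m : k) ≠ 0)
    {x : JZero (M * q)} (hmx : m • x = 0) {z z' : JZero (M * q)}
    (hz : z = heckeOperatorBar (M * q) ⟨q, hq.out⟩ x - σ • x)
    (hz' : z' = σ • (heckeOperatorBar (M * q) ⟨q, hq.out⟩ z) - q • z) :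
    σ • (heckeOperatorBar (M * q) ⟨q, hq.out⟩ z') = q • z' := by
  have hm : 0 < m := by
    rcases Nat.eq_zero_or_pos m with h | h
    · subst h
      simp at hmk
    · exact h
  have hres : IsResidual π σ (frobeniusEquiv k q) :=
    isResidual_of_frobenius S.surj hσ _ (fun x => rfl)
  obtain ⟨u, hu⟩ := RootCls.exists_of_torsion X hm hmx
  have hzr : ∃ v, RootCls X m z (v, 1) := by
    have h3 := (hu.hecke S hqM hD h1 h2).sub S.surj (hu.galois S h1 h2 hres)
    rw [← hz] at h3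
    simp only at h3
    rw [div_self (semi_smul_ne_zero _ hu.ne₂)] at h3
    exact ⟨_, h3⟩
  obtain ⟨v, hv⟩ := hzr
  have hz'r : InTorus X m z' := by
    have h3 := ((hv.hecke S hqM hD h1 h2).galois S h1 h2 hres).sub S.surj (hv.nsmul hm q)
    rw [← hz'] at h3
    simp only [one_pow, mul_one, smul_one, Prod.pow_fst, Prod.pow_snd, div_one] at h3
    rw [coeffSemi_PhiFull, div_self (pow_ne_zero _ hv.ne₁)] at h3
    exact h3
  rw [hecke_torus S hqM hD hgood h1 h2 hmk hz'r]
  have h4 := frob_w_torus S hD hgood h1 h2 hx (S.al.involutive hq.out) hσ hmk hz'r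
  rw [smul_neg, wJ_apply, h4, neg_neg]

/-- **The main relation** on `J₀(Mq)[m]`: with `z = U x - φ x`, `z' = φ U z - q z` one has
`φ U z' = q z'`. -/
theorem frob_hecke_relation (M q : ℕ) [NeZero M] [hq : Fact q.Prime] (hqM : ¬ q ∣ M)
    (A : ValuationSubring Qbar) (hA : A.LiesOverPrime q) {σ : Γℚ} (hσ : A.IsFrobeniusAt σ q)
    {m : ℕ} (hqm : ¬ q ∣ m) {x : JZero (M * q)} (hmx : m • x = 0) {z z' : JZero (M * q)}
    (hz : z = heckeOperatorBar (M * q) ⟨q, hq.out⟩ x - σ • x)
    (hz' : z' = σ • (heckeOperatorBar (M * q) ⟨q, hq.out⟩ z) - q • z) :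
    σ • (heckeOperatorBar (M * q) ⟨q, hq.out⟩ z') = q • z' := by
  have hπ : Function.Surjective (IsLocalRing.residue A) := IsLocalRing.residue_surjective
  have i1 : CharP (IsLocalRing.ResidueField A) q := Mod.charP_of_liesOverPrime hπ hq.out hA
  have i2 : IsAlgClosed (IsLocalRing.ResidueField A) := isAlgClosed_of_surjective hπ
  have i3 : ExpChar (IsLocalRing.ResidueField A) q := ExpChar.prime hq.out
  have hdeg : DegreeInput M (IsLocalRing.ResidueField A) := degreeInput' (NeZero.ne M) hqM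
  have hgood : GoodReduction M (IsLocalRing.ResidueField A) :=
    goodReduction hπ hq.out (NeZero.ne M) hqM
  have i4 := hdeg.functionField
  have i5 := hdeg.functionField'
  have i6 : FunctionField Qbar (modularFunctionFieldBar (M * q)) := functionField_bar (M * q)
  have i7 : FunctionField Qbar (modularFunctionFieldBar M) := functionField_bar M
  obtain ⟨w, -, S⟩ := exists_setup_bar (M := M) (q := q) hπ hqM
  obtain ⟨X, hX, -⟩ := exists_modular_nodalDatum hA hqM S hdeg hgood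
  exact relation_of_datum S hqM hdeg hgood hX.eq₁ hX.eq₂ hX.shift hσ
    ((CharP.cast_eq_zero_iff (IsLocalRing.ResidueField A) q m).not.mpr hqm) hmx hz hz'

end Modular

end Fermat.Agent.P2.LocQ
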