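import Mathlib

set_option autoImplicit false

/-!
# 2×2 matrix identities for the local structure at a Steinberg prime
-/

namespace Fermat.Agent.P2.LocQ

open Matrix

variable {R : Type*} [CommRing R]

theorem cayley (A : Matrix (Fin 2) (Fin 2) R) :
    A * A = A.trace • A - A.det • (1 : Matrix (Fin 2) (Fin 2) R) := by
  ext i j
  fin_cases i <;> fin_cases j <;>
    simp [Matrix.mul_apply, Fin.sum_univ_two, Matrix.trace_fin_two, Matrix.det_fin_two] <;> ring

/-- an element with trace `2` and determinant `1` is unipotent -/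
theorem sub_one_sq {A : Matrix (Fin 2) (Fin 2) R} (ht : A.trace = 2) (hd : A.det = 1) :
    (A - 1) * (A - 1) = 0 := by
  have h := cayley A
  rw [ht, hd, one_smul] at h
  have h2 : (2 : R) • A = A + A := two_smul R A
  rw [h2] at h
  rw [sub_mul, mul_sub, mul_one, one_mul, h]
  abel

theorem trace_sub_one {A : Matrix (Fin 2) (Fin 2) R} (ht : A.trace = 2) : (A - 1).trace = 0 := by
  rw [Matrix.trace_sub, ht, Matrix.trace_one, Fintype.card_fin]
  norm_num

/-- two nilpotent matrices with `tr (N N') = 0` satisfy `N N' = 0`, over a domain. -/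
theorem mul_eq_zero_of_trace [IsDomain R] {N N' : Matrix (Fin 2) (Fin 2) R} (h : N * N = 0)
    (h' : N' * N' = 0) (ht : N.trace = 0) (ht' : N'.trace = 0) (hm : (N * N').trace = 0) :
    N * N' = 0 := by
  have e1 : N 1 1 = -N 0 0 := by
    rw [Matrix.trace_fin_two] at ht
    linear_combination ht
  have e2 : N' 1 1 = -N' 0 0 := by
    rw [Matrix.trace_fin_two] at ht'
    linear_combination ht'
  have f1 : N 0 0 * N 0 0 + N 0 1 * N 1 0 = 0 := by
    have := congrFun (congrFun h 0) 0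
    simpa [Matrix.mul_apply, Fin.sum_univ_two] using this
  have f2 : N' 0 0 * N' 0 0 + N' 0 1 * N' 1 0 = 0 := by
    have := congrFun (congrFun h' 0) 0
    simpa [Matrix.mul_apply, Fin.sum_univ_two] using this
  have f3 : (N 0 0 * N' 0 0 + N 0 1 * N' 1 0) + (N 1 0 * N' 0 1 + N 0 0 * N' 0 0) = 0 := by
    rw [Matrix.trace_fin_two, Matrix.mul_apply, Matrix.mul_apply, Fin.sum_univ_two,
      Fin.sum_univ_two, e1, e2] at hm
    linear_combination hm
  have f4 : (N 0 0 * N' 0 0 + N 0 1 * N' 1 0) * (N 0 0 * N' 0 0 + N 0 1 * N' 1 0) = 0 := by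
    linear_combination (N 0 0 * N' 0 0 + N 0 1 * N' 1 0) * f3 -
      (N 0 0 * N' 0 0) * f3 - (N' 0 1 * N' 1 0) * f1 + (N 0 0 * N 0 0) * f2
  have f5 : N 0 0 * N' 0 0 + N 0 1 * N' 1 0 = 0 := mul_self_eq_zero.mp f4
  have f6 : N 1 0 * N' 0 1 + N 0 0 * N' 0 0 = 0 := by linear_combination f3 - f5
  have f7 : (N 0 0 * N' 0 1 - N 0 1 * N' 0 0) * (N 0 0 * N' 0 1 - N 0 1 * N' 0 0) = 0 := by
    linear_combination (N' 0 1 * N' 0 1) * f1 + (N 0 1 * N 0 1) * f2 - (N 0 1 * N' 0 1) * f3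
  have f8 : (N 1 0 * N' 0 0 - N 0 0 * N' 1 0) * (N 1 0 * N' 0 0 - N 0 0 * N' 1 0) = 0 := by
    linear_combination (N' 1 0 * N' 1 0) * f1 + (N 1 0 * N 1 0) * f2 - (N 1 0 * N' 1 0) * f3
  have f9 := mul_self_eq_zero.mp f7
  have f10 := mul_self_eq_zero.mp f8
  ext i j
  fin_cases i <;> fin_cases j <;>
    simp only [Matrix.mul_apply, Fin.sum_univ_two, Matrix.zero_apply, Fin.zero_eta, Fin.mk_one,
      Fin.isValue]
  · exact f5
  · rw [e2]; linear_combination f9
  · rw [e1]; linear_combination f10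
  · rw [e1, e2]; linear_combination f6

/-- cancel a nonzero scalar on matrices over a domain -/
theorem smul_cancel [IsDomain R] {c : R} (hc : c ≠ 0) {A B : Matrix (Fin 2) (Fin 2) R}
    (h : c • A = c • B) : A = B := by
  ext i j
  have := congrFun (congrFun h i) j
  simp only [Matrix.smul_apply, smul_eq_mul] at this
  exact mul_left_cancel₀ hc this

section Frob

variable {F N : Matrix (Fin 2) (Fin 2) R} {a q : R}

/-- the basic consequence of `φ N = q N φ` and Cayley–Hamilton. -/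
theorem frob_nil [IsDomain R] (hF : F * F = a • F - q • (1 : Matrix (Fin 2) (Fin 2) R))
    (hN : F * N = q • (N * F)) (hq : q ≠ 0) (hq1 : q ≠ 1) : a • (N * F) = (q + 1) • N := by
  have h1 : N * (F * F) = a • (N * F) - q • N := by
    rw [hF, mul_sub, Matrix.mul_smul, Matrix.mul_smul, mul_one]
  have h2 : F * (F * N) = (q * q) • (N * (F * F)) := by
    rw [hN, Matrix.mul_smul, ← mul_assoc, hN, Matrix.smul_mul, smul_smul, mul_assoc]
  have h3 : F * (F * N) = a • (q • (N * F)) - q • N := by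
    rw [← mul_assoc, hF, sub_mul, Matrix.smul_mul, Matrix.smul_mul, one_mul, hN]
  rw [h1] at h2
  rw [h2] at h3
  have hc : q * (q - 1) ≠ 0 := mul_ne_zero hq (sub_ne_zero.mpr hq1)
  refine smul_cancel hc ?_
  ext i j
  have h4 := congrFun (congrFun h3 i) j
  simp only [Matrix.smul_apply, Matrix.sub_apply, smul_eq_mul] at h4 ⊢
  linear_combination h4

theorem frob_nil_sign [IsDomain R] (hF : F * F = a • F - q • (1 : Matrix (Fin 2) (Fin 2) R))
    (hN : F * N = q • (N * F)) (hq : q ≠ 0) (hq1 : q ≠ 1) (hq2 : q + 1 ≠ 0) {e : R}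
    (he : e * e = 1) (ha : a = e * (q + 1)) : N * F = e • N := by
  have h1 := frob_nil hF hN hq hq1
  have he0 : e ≠ 0 := by
    rintro rfl
    rw [zero_mul] at he
    exact zero_ne_one he
  refine smul_cancel (mul_ne_zero he0 hq2) ?_
  rw [← ha, h1, smul_smul]
  congr 1
  linear_combination (-e) * ha - (q + 1) * he

/-- the trace in the ramified case -/
theorem trace_sq_of_nil [IsDomain R] (hF : F * F = a • F - q • (1 : Matrix (Fin 2) (Fin 2) R))
    (hN : F * N = q • (N * F)) (hq : q ≠ 0) (hq1 : q ≠ 1) (hN0 : N ≠ 0) :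
    a * a = (q + 1) * (q + 1) := by
  have h1 := frob_nil hF hN hq hq1
  have h2 : a • (N * (F * F)) = (q + 1) • (N * F) := by
    rw [← mul_assoc, ← Matrix.smul_mul, h1, Matrix.smul_mul]
  have h3 : N * (F * F) = a • (N * F) - q • N := by
    rw [hF, mul_sub, Matrix.mul_smul, Matrix.mul_smul, mul_one]
  rw [h3, h1] at h2
  by_contra hne
  apply hN0
  have hc : (q + 1) * (q + 1) - a * a ≠ 0 := fun h => hne (sub_eq_zero.mp h).symm
  refine smul_cancel hc ?_
  rw [smul_zero]
  ext i j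
  have h4 := congrFun (congrFun h1 i) j
  have h5 := congrFun (congrFun h2 i) j
  simp only [Matrix.smul_apply, Matrix.sub_apply, smul_eq_mul, Matrix.zero_apply] at h4 h5 ⊢
  linear_combination -a * h5 - (q + 1) * h4

end Frob

section Rel

variable {F N N' : Matrix (Fin 2) (Fin 2) R} {q e : R}

/-- The Steinberg relation for `g = φ^n τ`, `h = φ^m τ'`. -/
theorem rel_words (hF : (F - (q * e) • (1 : Matrix (Fin 2) (Fin 2) R)) * (F - e • 1) = 0)
    (hN : N * F = e • N) (hN' : F * N' = (q * e) • N') (hNN : N * N' = 0) (n m : ℕ) :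
    (F ^ n * (1 + N) - ((q * e) ^ n) • (1 : Matrix (Fin 2) (Fin 2) R)) *
      (F ^ m * (1 + N') - (e ^ m) • 1) = 0 := by
  have hc1 : Commute F (F - (q * e) • (1 : Matrix (Fin 2) (Fin 2) R)) := by
    rw [Commute, SemiconjBy, mul_sub, sub_mul, Matrix.mul_smul, Matrix.smul_mul, mul_one, one_mul]
  have hc2 : Commute F (F - e • (1 : Matrix (Fin 2) (Fin 2) R)) := by
    rw [Commute, SemiconjBy, mul_sub, sub_mul, Matrix.mul_smul, Matrix.smul_mul, mul_one, one_mul]
  obtain ⟨P, hP⟩ : ∃ P, F ^ n - ((q * e) ^ n) • (1 : Matrix (Fin 2) (Fin 2) R) =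
      P * (F - (q * e) • 1) := by
    refine ⟨∑ i ∈ Finset.range n, F ^ i * ((q * e) • (1 : Matrix (Fin 2) (Fin 2) R)) ^ (n - 1 - i),
      ?_⟩
    have hcomm : Commute F ((q * e) • (1 : Matrix (Fin 2) (Fin 2) R)) := by
      rw [Commute, SemiconjBy, Matrix.mul_smul, Matrix.smul_mul, mul_one, one_mul]
    rw [hcomm.geom_sum₂_mul, smul_pow, one_pow]
  obtain ⟨P', hP'⟩ : ∃ P', F ^ m - (e ^ m) • (1 : Matrix (Fin 2) (Fin 2) R) =
      (F - e • 1) * P' := by
    refine ⟨∑ i ∈ Finset.range m, F ^ i * (e • (1 : Matrix (Fin 2) (Fin 2) R)) ^ (m - 1 - i), ?_⟩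
    have hcomm : Commute F (e • (1 : Matrix (Fin 2) (Fin 2) R)) := by
      rw [Commute, SemiconjBy, Matrix.mul_smul, Matrix.smul_mul, mul_one, one_mul]
    rw [hcomm.mul_geom_sum₂, smul_pow, one_pow]
  have hFm : ∀ k : ℕ, F ^ k * N' = ((q * e) ^ k) • N' := by
    intro k
    induction k with
    | zero => rw [pow_zero, pow_zero, one_mul, one_smul]
    | succ k ih =>
      rw [pow_succ', mul_assoc, ih, Matrix.mul_smul, hN', smul_smul, pow_succ]
  have hNF : N * (F - e • (1 : Matrix (Fin 2) (Fin 2) R)) = 0 := by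
    rw [mul_sub, hN, Matrix.mul_smul, mul_one, sub_self]
  have hFN : (F - (q * e) • (1 : Matrix (Fin 2) (Fin 2) R)) * N' = 0 := by
    rw [sub_mul, hN', Matrix.smul_mul, one_mul, sub_self]
  have e1 : F ^ n * (1 + N) - ((q * e) ^ n) • (1 : Matrix (Fin 2) (Fin 2) R) =
      P * (F - (q * e) • 1) + F ^ n * N := by
    rw [← hP, mul_add, mul_one]
    abel
  have e2 : F ^ m * (1 + N') - (e ^ m) • (1 : Matrix (Fin 2) (Fin 2) R) =
      (F - e • 1) * P' + ((q * e) ^ m) • N' := by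
    rw [← hP', mul_add, mul_one, hFm]
    abel
  rw [e1, e2, add_mul, mul_add, mul_add, Matrix.mul_smul, Matrix.mul_smul]
  have t1 : P * (F - (q * e) • (1 : Matrix (Fin 2) (Fin 2) R)) * ((F - e • 1) * P') = 0 := by
    rw [mul_assoc, ← mul_assoc (F - (q * e) • (1 : Matrix (Fin 2) (Fin 2) R)), hF, zero_mul,
      mul_zero]
  have t2 : P * (F - (q * e) • (1 : Matrix (Fin 2) (Fin 2) R)) * N' = 0 := by
    rw [mul_assoc, hFN, mul_zero]
  have t3 : F ^ n * N * ((F - e • (1 : Matrix (Fin 2) (Fin 2) R)) * P') = 0 := by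
    rw [mul_assoc, ← mul_assoc N, hNF, zero_mul, mul_zero]
  have t4 : F ^ n * N * N' = 0 := by rw [mul_assoc, hNN, mul_zero]
  rw [t1, t2, t3, t4, smul_zero, add_zero, add_zero]

end Rel

end Fermat.Agent.P2.LocQ
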