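import Fermat.Agent.P2.LocQ.OddAt
import Fermat.Agent.P2.LocQ.MatAlg
import Fermat.Agent.Mazur.Tame

set_option autoImplicit false
set_option linter.style.haveILetI false
set_option linter.unusedSectionVars false

/-!
# The Steinberg relation from unipotent inertia and the trace of Frobenius

`r : G_ℚ → M₂(R)` continuous (adically), `P` a place over `q`, inertia at `P` has trace `2` and
determinant `1`, Frobenius elements have determinant `q` and trace `e (q + 1)`, `e² = 1`: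
the Steinberg relation `StRel P q e (det r) r`.
-/

open Pointwise IsLocalRing Matrix

namespace Fermat.Agent.P2.LocQ

open Fermat.Agent.Mazur.Tame

local notation "Ω" => AlgebraicClosure ℚ
local notation "GQ" => (AlgebraicClosure ℚ ≃ₐ[ℚ] AlgebraicClosure ℚ)

/-- local hypotheses at `P` over `q` on a two-dimensional representation -/
structure LocHyp {R : Type} [CommRing R] [IsLocalRing R] (p q : ℕ) (P : ValuationSubring Ω)
    (r : GQ →* Matrix (Fin 2) (Fin 2) R) : Prop where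
  hq : q.Prime
  hp : p.Prime
  hqp : q ≠ p
  hpR : (p : R) ∈ maximalIdeal R
  lies : P.LiesOverPrime q
  cont : ∀ n : ℕ, ∃ L : IntermediateField ℚ Ω, FiniteDimensional ℚ L ∧
    ∀ h : GQ, (∀ x ∈ L, h x = x) → ∀ i j, (r h - 1) i j ∈ maximalIdeal R ^ n
  det_in : ∀ τ ∈ P.inertiaSubgroupIn ℚ, (r τ).det = 1
  tr_in : ∀ τ ∈ P.inertiaSubgroupIn ℚ, (r τ).trace = 2
  det_frob : ∀ φ : GQ, P.IsFrobeniusAt φ q → (r φ).det = (q : R)

section

variable {R : Type} [CommRing R] [IsLocalRing R] [IsNoetherianRing R] [IsDomain R] [CharZero R]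
  [Finite (ResidueField R)] {p q : ℕ} {P : ValuationSubring Ω}
  {r : GQ →* Matrix (Fin 2) (Fin 2) R}

theorem eq_zero_of_mem_pow {x : R} (h : ∀ n : ℕ, x ∈ maximalIdeal R ^ n) : x = 0 := by
  have h1 := Ideal.iInf_pow_eq_bot_of_isLocalRing (maximalIdeal R) (Ideal.IsPrime.ne_top')
  have h2 : x ∈ (⨅ n : ℕ, maximalIdeal R ^ n : Ideal R) := (Ideal.mem_iInf).mpr h
  rw [h1] at h2
  exact h2

namespace LocHyp

variable (H : LocHyp p q P r)
include H

theorem nil {τ : GQ} (hτ : τ ∈ P.inertiaSubgroupIn ℚ) : (r τ - 1) * (r τ - 1) = 0 :=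
  sub_one_sq (H.tr_in τ hτ) (H.det_in τ hτ)

theorem nil_mul {σ τ : GQ} (hσ : σ ∈ P.inertiaSubgroupIn ℚ) (hτ : τ ∈ P.inertiaSubgroupIn ℚ) :
    (r σ - 1) * (r τ - 1) = 0 := by
  refine mul_eq_zero_of_trace (H.nil hσ) (H.nil hτ) (trace_sub_one (H.tr_in σ hσ))
    (trace_sub_one (H.tr_in τ hτ)) ?_
  have h1 := H.tr_in (σ * τ) (mul_mem hσ hτ)
  have h2 := H.tr_in σ hσ
  have h3 := H.tr_in τ hτ
  rw [map_mul] at h1
  rw [sub_mul, mul_sub, mul_one, one_mul, Matrix.trace_sub, Matrix.trace_sub, Matrix.trace_sub,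
    h1, h2, h3, Matrix.trace_one, Fintype.card_fin]
  norm_num

theorem mul_sub_one {σ τ : GQ} (hσ : σ ∈ P.inertiaSubgroupIn ℚ)
    (hτ : τ ∈ P.inertiaSubgroupIn ℚ) : r (σ * τ) - 1 = (r σ - 1) + (r τ - 1) := by
  have h := H.nil_mul hσ hτ
  rw [sub_mul, mul_sub, mul_one, one_mul] at h
  rw [map_mul, ← sub_eq_zero, ← h]
  abel

/-- Frobenius conjugation on inertia. -/
theorem conj {φ τ : GQ} (hφ : P.IsFrobeniusAt φ q) (hτ : τ ∈ P.inertiaSubgroupIn ℚ) :
    r (φ * τ * φ⁻¹) - 1 = (q : R) • (r τ - 1) := by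
  have hcop : ∀ n : ℕ, (p ^ n).Coprime q := fun n =>
    Nat.Coprime.pow_left n ((Nat.coprime_primes H.hp H.hq).mpr H.hqp.symm)
  ext i j
  rw [← sub_eq_zero]
  refine eq_zero_of_mem_pow fun n => ?_
  haveI : Finite (R ⧸ maximalIdeal R) := inferInstanceAs (Finite (ResidueField R))
  haveI : Finite (R ⧸ maximalIdeal R ^ n) :=
    Ideal.finite_quotient_pow (IsNoetherian.noetherian _) n
  let ψ : GQ → R ⧸ maximalIdeal R ^ n := fun g => Ideal.Quotient.mk _ ((r g - 1) i j)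
  have hψ : IsTameHom P (p ^ n) ψ := by
    refine ⟨fun σ hσ τ hτ => ?_, ?_, fun σ hσ => ?_⟩
    · change Ideal.Quotient.mk _ ((r (σ * τ) - 1) i j) = _
      rw [H.mul_sub_one hσ hτ, Matrix.add_apply, map_add]
    · obtain ⟨L, hL, h⟩ := H.cont n
      exact ⟨L, hL, fun σ hσ hx => Ideal.Quotient.eq_zero_iff_mem.mpr (h σ hx i j)⟩
    · rw [nsmul_eq_mul]
      have h1 : ((p ^ n : ℕ) : R ⧸ maximalIdeal R ^ n) = 0 := by
        have h2 : ((p ^ n : ℕ) : R) ∈ maximalIdeal R ^ n := by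
          rw [Nat.cast_pow]
          exact Ideal.pow_mem_pow H.hpR n
        have h3 := Ideal.Quotient.eq_zero_iff_mem.mpr h2
        rwa [map_natCast] at h3
      rw [h1, zero_mul]
  have h1 := (hψ.apply_conj H.hq H.lies (hcop n) hφ hτ).2
  have h2 : Ideal.Quotient.mk (maximalIdeal R ^ n)
      ((r (φ * τ * φ⁻¹) - 1) i j - ((q : R) • (r τ - 1)) i j) = 0 := by
    rw [map_sub (Ideal.Quotient.mk (maximalIdeal R ^ n)), Matrix.smul_apply, smul_eq_mul,
      map_mul (Ideal.Quotient.mk (maximalIdeal R ^ n)), map_natCast, ← nsmul_eq_mul]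
    exact sub_eq_zero.mpr h1
  exact Ideal.Quotient.eq_zero_iff_mem.mp h2

theorem frob_mul {φ τ : GQ} (hφ : P.IsFrobeniusAt φ q) (hτ : τ ∈ P.inertiaSubgroupIn ℚ) :
    r φ * (r τ - 1) = (q : R) • ((r τ - 1) * r φ) := by
  have h := H.conj hφ hτ
  have h1 : r φ * (r τ - 1) = (r (φ * τ * φ⁻¹) - 1) * r φ := by
    rw [mul_sub, sub_mul, mul_one, one_mul, ← map_mul, ← map_mul, inv_mul_cancel_right]
  rw [h1, h, Matrix.smul_mul]

theorem cay {φ : GQ} (hφ : P.IsFrobeniusAt φ q) :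
    r φ * r φ = (r φ).trace • r φ - (q : R) • (1 : Matrix (Fin 2) (Fin 2) R) := by
  rw [cayley (r φ), H.det_frob φ hφ]

theorem q_ne_zero : (q : R) ≠ 0 := Nat.cast_ne_zero.mpr H.hq.ne_zero

theorem q_ne_one : (q : R) ≠ 1 := by
  have h := H.hq.one_lt.ne'
  exact_mod_cast fun h1 : (q : R) = ((1 : ℕ) : R) => h (Nat.cast_injective h1)

theorem q_add_one : (q : R) + 1 ≠ 0 := by
  exact_mod_cast (Nat.cast_ne_zero (R := R)).mpr (Nat.succ_ne_zero q)

theorem nil_frob {e : R} (he : e * e = 1) {φ τ : GQ} (hφ : P.IsFrobeniusAt φ q)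
    (htr : (r φ).trace = e * (q + 1)) (hτ : τ ∈ P.inertiaSubgroupIn ℚ) :
    (r τ - 1) * r φ = e • (r τ - 1) :=
  frob_nil_sign (H.cay hφ) (H.frob_mul hφ hτ) H.q_ne_zero H.q_ne_one H.q_add_one he htr

/-- the relation for words -/
theorem rel_word {e : R} (he : e * e = 1) {φ : GQ} (hφ : P.IsFrobeniusAt φ q)
    (htr : (r φ).trace = e * (q + 1)) {σ τ : GQ} (hσ : σ ∈ P.inertiaSubgroupIn ℚ)
    (hτ : τ ∈ P.inertiaSubgroupIn ℚ) (n m : ℕ) :
    (r (φ ^ n * σ) - algebraMap R (Matrix (Fin 2) (Fin 2) R)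
        (eta P q e (φ ^ n * σ) * (r (φ ^ n * σ)).det)) *
      (r (φ ^ m * τ) - algebraMap R (Matrix (Fin 2) (Fin 2) R) (eta P q e (φ ^ m * τ))) = 0 := by
  have hd : (r (φ ^ n * σ)).det = (q : R) ^ n := by
    rw [map_mul, map_pow, Matrix.det_mul, Matrix.det_pow, H.det_frob φ hφ, H.det_in σ hσ, mul_one]
  rw [eta_word he H.hq H.lies hφ hσ, eta_word he H.hq H.lies hφ hτ, hd,
    Algebra.algebraMap_eq_smul_one, Algebra.algebraMap_eq_smul_one]
  have h1 : r (φ ^ n * σ) = r φ ^ n * (1 + (r σ - 1)) := by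
    rw [map_mul, map_pow, add_sub_cancel]
  have h2 : r (φ ^ m * τ) = r φ ^ m * (1 + (r τ - 1)) := by
    rw [map_mul, map_pow, add_sub_cancel]
  have h3 : e ^ n * (q : R) ^ n = ((q : R) * e) ^ n := by rw [mul_pow, mul_comm]
  rw [h1, h2, h3]
  refine rel_words ?_ (H.nil_frob he hφ htr hσ) ?_ (H.nil_mul hσ hτ) n m
  · have h4 := H.cay hφ
    rw [htr] at h4
    rw [sub_mul, mul_sub, Matrix.mul_smul, mul_one, h4, Matrix.smul_mul, one_mul]
    have h5 : ((q : R) * e) • (r φ - e • (1 : Matrix (Fin 2) (Fin 2) R)) =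
        ((q : R) * e) • r φ - (q : R) • (1 : Matrix (Fin 2) (Fin 2) R) := by
      rw [smul_sub, smul_smul, mul_assoc, he, mul_one]
    rw [h5]
    module
  · rw [H.frob_mul hφ hτ, H.nil_frob he hφ htr hτ, smul_smul]

/-- **The Steinberg relation** from the trace of one Frobenius. -/
theorem stRel {e : R} (he : e * e = 1) {φ : GQ} (hφ : P.IsFrobeniusAt φ q)
    (htr : (r φ).trace = e * (q + 1)) :
    StRel P q e (fun g => (r g).det) (fun g => r g) := by
  intro g hg h hh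
  ext i j
  rw [Matrix.zero_apply]
  refine eq_zero_of_mem_pow fun n => ?_
  obtain ⟨L₁, hL₁, h₁⟩ := H.cont n
  obtain ⟨L₂, hL₂, h₂⟩ := exists_level_odd P H.hq
  haveI : FiniteDimensional ℚ (L₁ ⊔ L₂ : IntermediateField ℚ Ω) :=
    IntermediateField.finiteDimensional_sup L₁ L₂
  obtain ⟨a, σ, hσ, ha⟩ := TWFlat.exists_frob_mul_inertia H.hq H.lies hφ hg (L₁ ⊔ L₂)
  obtain ⟨b, τ, hτ, hb⟩ := TWFlat.exists_frob_mul_inertia H.hq H.lies hφ hh (L₁ ⊔ L₂)
  -- reduction modulo `𝔪 ^ n`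
  let π := Ideal.Quotient.mk (maximalIdeal R ^ n)
  have hπ : ∀ g g' : GQ, (∀ x ∈ L₁, g x = g' x) → π.mapMatrix (r g) = π.mapMatrix (r g') := by
    intro g g' hgg
    have h3 : π.mapMatrix (r (g'⁻¹ * g)) = 1 := by
      have h4 := h₁ (g'⁻¹ * g) (fun x hx => by
        change g'⁻¹ (g x) = x
        rw [hgg x hx]
        exact g'.symm_apply_apply x)
      have h5 : π.mapMatrix (r (g'⁻¹ * g) - 1) = 0 := by
        ext i j
        rw [RingHom.mapMatrix_apply, Matrix.map_apply, Matrix.zero_apply]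
        exact Ideal.Quotient.eq_zero_iff_mem.mpr (h4 i j)
      rw [map_sub, map_one, sub_eq_zero] at h5
      exact h5
    have h6 : g = g' * (g'⁻¹ * g) := by group
    conv_lhs => rw [h6]
    rw [map_mul r, map_mul, h3, mul_one]
  have eg := hπ g (φ ^ a * σ) fun x hx => ha x ((le_sup_left : L₁ ≤ L₁ ⊔ L₂) hx)
  have eh := hπ h (φ ^ b * τ) fun x hx => hb x ((le_sup_left : L₁ ≤ L₁ ⊔ L₂) hx)
  have og : eta P q e g = eta P q e (φ ^ a * σ) := eta_congr (h₂ g hg _ (word_mem hφ hσ a)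
    fun x hx => ha x ((le_sup_right : L₂ ≤ L₁ ⊔ L₂) hx))
  have oh : eta P q e h = eta P q e (φ ^ b * τ) := eta_congr (h₂ h hh _ (word_mem hφ hτ b)
    fun x hx => hb x ((le_sup_right : L₂ ≤ L₁ ⊔ L₂) hx))
  have ed : π (r g).det = π (r (φ ^ a * σ)).det := by
    rw [RingHom.map_det, RingHom.map_det, eg]
  have key := congrArg π.mapMatrix (H.rel_word he hφ htr hσ hτ a b)
  have hal : ∀ c : R, π.mapMatrix (algebraMap R (Matrix (Fin 2) (Fin 2) R) c) =
      algebraMap _ (Matrix (Fin 2) (Fin 2) (R ⧸ maximalIdeal R ^ n)) (π c) := by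
    intro c
    ext i j
    rw [RingHom.mapMatrix_apply, Matrix.map_apply, Matrix.algebraMap_matrix_apply,
      Matrix.algebraMap_matrix_apply]
    split_ifs
    · rfl
    · exact map_zero π
  rw [map_mul, map_sub, map_sub, map_zero, hal, hal, ← eg, ← eh, map_mul π, ← ed, ← og, ← oh,
    ← map_mul π, ← hal, ← hal, ← map_sub, ← map_sub, ← map_mul] at key
  have key2 := congrFun (congrFun key i) j
  rw [RingHom.mapMatrix_apply, Matrix.map_apply, Matrix.zero_apply] at key2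
  exact Ideal.Quotient.eq_zero_iff_mem.mp key2

/-- In the ramified case the trace of Frobenius is `± (q + 1)`. -/
theorem exists_sign {τ : GQ} (hτ : τ ∈ P.inertiaSubgroupIn ℚ) (hne : r τ ≠ 1) {φ : GQ}
    (hφ : P.IsFrobeniusAt φ q) : ∃ e : R, (e = 1 ∨ e = -1) ∧ (r φ).trace = e * (q + 1) := by
  have h := trace_sq_of_nil (H.cay hφ) (H.frob_mul hφ hτ) H.q_ne_zero H.q_ne_one
    (sub_ne_zero.mpr hne)
  have h1 : ((r φ).trace - (q + 1)) * ((r φ).trace + (q + 1)) = 0 := by linear_combination h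
  rcases mul_eq_zero.mp h1 with h2 | h2
  · exact ⟨1, Or.inl rfl, by linear_combination h2⟩
  · exact ⟨-1, Or.inr rfl, by linear_combination h2⟩

end LocHyp

end

end Fermat.Agent.P2.LocQ
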