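import Fermat.Agent.P2.LocQ.Trace
import Fermat.Agent.P2.LocQ.Local
import Fermat.Agent.DR.OrdAll.Eta
import Fermat.Agent.DR.ModGal.Unipotent
import Fermat.Agent.DefRing.MatRep
import Fermat.Agent.FrobExists

set_option autoImplicit false
set_option linter.style.haveILetI false
set_option linter.unusedSectionVars false

/-!
# The local structure at `q ∥ N` of representations attached to eigensystems of level `N`

* `relation_U`: `χ(U_q)² - tr ρ(φ) χ(U_q) + q = 0`;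
* `stRel_of_U`: if `χ(U_q)² = 1` then the Steinberg relation holds with sign `χ(U_q)`;
* `exists_stRel_of_ramified`: if `ρ` is ramified at `q` the Steinberg relation holds with a sign.
-/

noncomputable section

open Polynomial IsLocalRing ModularCurve

namespace Fermat.Agent.P2.LocQ

open Fermat.Agent.DR.S34Algebra Fermat.Agent.DR.S34Wiring Fermat.Agent.S30Assembly
open Fermat.Agent.Cyclotomic Fermat.Agent.CMP Fermat.Agent.DefRing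

local notation "Qbar" => AlgebraicClosure ℚ
local notation "Γℚ" => (AlgebraicClosure ℚ ≃ₐ[ℚ] AlgebraicClosure ℚ)

section Transport

variable {𝒪 : Type} [CommRing 𝒪] [IsLocalRing 𝒪]

/-- Transport of the Steinberg relation from matrices to endomorphisms. -/
theorem stRel_of_matOf {ρ : GaloisRepAdic 𝒪} {b : Module.Basis (Fin 2) 𝒪 ρ.V}
    {P : ValuationSubring Qbar} {q : ℕ} {e : 𝒪}
    (h : StRel P q e (fun g => (matOf ρ b g).det) (fun g => matOf ρ b g)) :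
    StRel P q e (fun g => LinearMap.det (ρ.ρ g)) (fun g => ρ.ρ g) := by
  intro g hg g' hg'
  have h1 := h g hg g' hg'
  have h2 : ∀ c : 𝒪, LinearMap.toMatrix b b (algebraMap 𝒪 (Module.End 𝒪 ρ.V) c) =
      algebraMap 𝒪 (Matrix (Fin 2) (Fin 2) 𝒪) c := by
    intro c
    rw [Algebra.algebraMap_eq_smul_one, Algebra.algebraMap_eq_smul_one, map_smul,
      LinearMap.toMatrix_one]
  have h3 : (matOf ρ b g).det = LinearMap.det (ρ.ρ g) := by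
    rw [matOf_apply, LinearMap.det_toMatrix]
  simp only [h3] at h1
  rw [matOf_apply, matOf_apply, ← h2, ← h2, ← map_sub, ← map_sub, ← LinearMap.toMatrix_mul] at h1
  exact (LinearMap.toMatrix b b).map_eq_zero_iff.mp h1

/-- Transport of the Steinberg relation from endomorphisms to matrices. -/
theorem stRel_matOf {ρ : GaloisRepAdic 𝒪} (b : Module.Basis (Fin 2) 𝒪 ρ.V)
    {P : ValuationSubring Qbar} {q : ℕ} {e : 𝒪}
    (h : StRel P q e (fun g => LinearMap.det (ρ.ρ g)) (fun g => ρ.ρ g)) :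
    StRel P q e (fun g => (matOf ρ b g).det) (fun g => matOf ρ b g) := by
  intro g hg g' hg'
  have h1 := congrArg (LinearMap.toMatrix b b) (h g hg g' hg')
  rw [map_zero, LinearMap.toMatrix_mul, map_sub, map_sub, ← matOf_apply, ← matOf_apply] at h1
  have h2 : ∀ c : 𝒪, LinearMap.toMatrix b b (algebraMap 𝒪 (Module.End 𝒪 ρ.V) c) =
      algebraMap 𝒪 (Matrix (Fin 2) (Fin 2) 𝒪) c := by
    intro c
    rw [Algebra.algebraMap_eq_smul_one, Algebra.algebraMap_eq_smul_one, map_smul,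
      LinearMap.toMatrix_one]
  rw [h2, h2] at h1
  have h3 : LinearMap.det (ρ.ρ g) = (matOf ρ b g).det := by
    rw [matOf_apply, LinearMap.det_toMatrix]
  simp only [h3] at h1
  exact h1

theorem stRel_place {ρ : GaloisRepAdic 𝒪} {P P' : ValuationSubring Qbar} {q : ℕ} (hq : q.Prime)
    (hP : P.LiesOverPrime q) (hP' : P'.LiesOverPrime q) {e : 𝒪} (he : e * e = 1)
    (h : StRel P q e (fun g => LinearMap.det (ρ.ρ g)) (fun g => ρ.ρ g)) :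
    StRel P' q e (fun g => LinearMap.det (ρ.ρ g)) (fun g => ρ.ρ g) := by
  refine DR.OrdAll.stRel_of_place hq hP hP' he (fun g h => ?_) h
  rw [map_mul, map_mul, map_mul, map_mul, mul_right_comm, ← map_mul, ← map_mul ρ.ρ,
    mul_inv_cancel, map_one, map_one, one_mul]

end Transport

section Hyp

variable {N p : ℕ} [NeZero N] {S0 : Set ℕ} {S : Finset ℕ} {𝒪 : Type}
  [CommRing 𝒪] [IsLocalRing 𝒪] [IsNoetherianRing 𝒪]
  {χ : CuspForm.heckeAlgebra N 2 S0 →+* 𝒪} {ρ : GaloisRepAdic 𝒪}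

/-- The local hypotheses for the representation attached to a character. -/
theorem TrData.locHyp (D : TrData N p S0 S χ ρ) (hp : p.Prime) {q : ℕ} (hq : q.Prime)
    (hqp : q ≠ p) (hqN : q ∣ N) (hqN2 : ¬ q ^ 2 ∣ N) {P : ValuationSubring Qbar}
    (hP : P.LiesOverPrime q) (b : Module.Basis (Fin 2) 𝒪 ρ.V) :
    LocHyp p q P (matOf ρ b) := by
  haveI : Fact p.Prime := ⟨hp⟩
  have hdet : ∀ g, (matOf ρ b g).det = LinearMap.det (ρ.ρ g) := fun g => by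
    rw [matOf_apply, LinearMap.det_toMatrix]
  have htr : ∀ g, (matOf ρ b g).trace = LinearMap.trace 𝒪 ρ.V (ρ.ρ g) := fun g => by
    rw [matOf_apply, ← LinearMap.trace_eq_matrix_trace]
  exact {
    hq := hq
    hp := hp
    hqp := hqp
    hpR := D.hp𝒪
    lies := hP
    cont := matOf_cts ρ b
    det_in := fun τ hτ => by rw [hdet, D.det_inertia hq hqp hP hτ]
    tr_in := fun τ hτ => by
      rw [htr, D.trace_inertia hq hqp (DR.ModGal.unipotentInput N hp hq hqp hqN hqN2) hP hτ]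
    det_frob := fun φ hφ => by rw [hdet, D.det_frob hq hqp hP hφ] }

end Hyp

section Main

variable {N : ℕ} [NeZero N] {p q : ℕ} {S0 : Set ℕ} {S : Finset ℕ}
  {𝒪 : Type} [CommRing 𝒪] [IsDomain 𝒪] [IsDiscreteValuationRing 𝒪] [Finite (ResidueField 𝒪)]
  [CharZero 𝒪]

/-- The enlarged set of excluded primes. -/
def bigS (N p : ℕ) (S : Finset ℕ) : Finset ℕ := insert p (S ∪ N.primeFactors)

theorem subset_bigS {ℓ : ℕ} (h : ℓ ∈ S) : ℓ ∈ bigS N p S :=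
  Finset.mem_insert_of_mem (Finset.mem_union_left _ h)

/-- The data for a character with support. -/
theorem trData_of {χ : CuspForm.heckeAlgebra N 2 S0 →+* 𝒪} {ρ : GaloisRepAdic 𝒪}
    (hS0 : ∀ ℓ ∈ S0, ℓ ∈ S) (hp𝒪 : (p : 𝒪) ∈ maximalIdeal 𝒪)
    (hρ : ∀ (ℓ : ℕ) (hℓ : ℓ.Prime) (hℓN : ¬ ℓ ∣ N) (hℓ0 : ℓ ∉ S0), ℓ ∉ S →
      ∀ A : ValuationSubring Qbar, A.LiesOverPrime ℓ → ∀ σ : Γℚ, A.IsFrobeniusAt σ ℓ →
        LinearMap.charpoly (ρ.ρ σ) =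
          X ^ 2 - C (χ (CuspForm.heckeAlgebra.T hℓ hℓN hℓ0)) * X + C (ℓ : 𝒪))
    (hsupp : SuppAt N p S0 χ) : TrData N p S0 (bigS N p S) χ ρ where
  hpS := Finset.mem_insert_self _ _
  hNS := fun r hr hrN => Finset.mem_insert_of_mem (Finset.mem_union_right _
    (Nat.mem_primeFactors.mpr ⟨hr, hrN, NeZero.ne N⟩))
  hS0 := fun ℓ h => subset_bigS (hS0 ℓ h)
  hp𝒪 := hp𝒪
  frob := fun ℓ hℓ hℓN hℓ0 hℓS => hρ ℓ hℓ hℓN hℓ0 fun h => hℓS (subset_bigS h)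
  supp := hsupp

/-- The data for the restriction of a character to the anemic Hecke algebra. -/
theorem trData_anemic (hp : p.Prime) {χ : CuspForm.heckeAlgebra N 2 S0 →+* 𝒪} {ρ : GaloisRepAdic 𝒪}
    (hS0 : ∀ ℓ ∈ S0, ℓ ∈ S) (hp𝒪 : (p : 𝒪) ∈ maximalIdeal 𝒪)
    (hρ : ∀ (ℓ : ℕ) (hℓ : ℓ.Prime) (hℓN : ¬ ℓ ∣ N) (hℓ0 : ℓ ∉ S0), ℓ ∉ S →
      ∀ A : ValuationSubring Qbar, A.LiesOverPrime ℓ → ∀ σ : Γℚ, A.IsFrobeniusAt σ ℓ →
        LinearMap.charpoly (ρ.ρ σ) =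
          X ^ 2 - C (χ (CuspForm.heckeAlgebra.T hℓ hℓN hℓ0)) * X + C (ℓ : 𝒪)) :
    ∃ χ' : CuspForm.heckeAlgebra N 2 (↑(bigS N p S) : Set ℕ) →+* 𝒪,
      TrData N p (↑(bigS N p S) : Set ℕ) (bigS N p S) χ' ρ := by
  have hle : CuspForm.heckeAlgebra N 2 (↑(bigS N p S) : Set ℕ) ≤ CuspForm.heckeAlgebra N 2 S0 :=
    CuspForm.heckeAlgebra_mono fun ℓ h => Finset.mem_coe.mpr (subset_bigS (hS0 ℓ h))
  refine ⟨χ.comp (Subalgebra.inclusion hle).toRingHom, ?_⟩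
  have hNS : ∀ r : ℕ, r.Prime → r ∣ N → r ∈ bigS N p S := fun r hr hrN =>
    Finset.mem_insert_of_mem (Finset.mem_union_right _
      (Nat.mem_primeFactors.mpr ⟨hr, hrN, NeZero.ne N⟩))
  refine ⟨Finset.mem_insert_self _ _, hNS, fun ℓ h => Finset.mem_coe.mp h, hp𝒪, ?_, ?_⟩
  · intro ℓ hℓ hℓN hℓ0 hℓS A hA σ hσ
    have h0 : ℓ ∉ S := fun h => hℓS (subset_bigS h)
    exact hρ ℓ hℓ hℓN (fun h => h0 (hS0 ℓ h)) h0 A hA σ hσ
  · haveI : Fact p.Prime := ⟨hp⟩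
    exact suppAt_anemic (GAL.Final.s30_inputs DR.allInputs p N (bigS N p S)) hNS _

/-- `genS` at a prime dividing the level. -/
theorem evalS_U (hq : q.Prime) (hqN : q ∣ N) (hq0 : q ∉ S0) :
    evalS N S0 (MvPolynomial.X ⟨⟨q, hq⟩, hq0⟩) = CuspForm.heckeAlgebra.U hq hqN hq0 := by
  rw [evalS_X]
  exact dif_pos hqN

/-- **(R)** `χ(U_q)² - tr ρ(φ) χ(U_q) + q = 0` for Frobenius elements at places over `q ∥ N`. -/
theorem relation_U_of_supp (hp : p.Prime) (hq : q.Prime) (hqp : q ≠ p) (hqN : q ∣ N)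
    (hqN2 : ¬ q ^ 2 ∣ N) (hq0 : q ∉ S0) (hS0 : ∀ ℓ ∈ S0, ℓ ∈ S)
    (hp𝒪 : (p : 𝒪) ∈ maximalIdeal 𝒪) (χ : CuspForm.heckeAlgebra N 2 S0 →+* 𝒪)
    (hsupp : SuppAt N p S0 χ) (ρ : GaloisRepAdic 𝒪)
    (hρ : ∀ (ℓ : ℕ) (hℓ : ℓ.Prime) (hℓN : ¬ ℓ ∣ N) (hℓ0 : ℓ ∉ S0), ℓ ∉ S →
      ∀ A : ValuationSubring Qbar, A.LiesOverPrime ℓ → ∀ σ : Γℚ, A.IsFrobeniusAt σ ℓ →
        LinearMap.charpoly (ρ.ρ σ) =
          X ^ 2 - C (χ (CuspForm.heckeAlgebra.T hℓ hℓN hℓ0)) * X + C (ℓ : 𝒪))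
    {P : ValuationSubring Qbar} (hP : P.LiesOverPrime q) {φ : Γℚ} (hφ : P.IsFrobeniusAt φ q) :
    χ (CuspForm.heckeAlgebra.U hq hqN hq0) ^ 2 -
      LinearMap.trace 𝒪 ρ.V (ρ.ρ φ) * χ (CuspForm.heckeAlgebra.U hq hqN hq0) + (q : 𝒪) = 0 := by
  obtain ⟨M, hM⟩ := id hqN
  rw [mul_comm] at hM
  subst hM
  haveI : NeZero M := ⟨by
    rintro rfl
    exact NeZero.ne (0 * q) (zero_mul q)⟩
  haveI : Fact p.Prime := ⟨hp⟩
  haveI : Fact q.Prime := ⟨hq⟩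
  have hqM : ¬ q ∣ M := by
    rintro ⟨c, rfl⟩
    exact hqN2 ⟨c, by ring⟩
  have D := trData_of (p := p) hS0 hp𝒪 hρ hsupp
  have h := D.relation hqM hqp hq0 hP hφ
  rwa [evalS_U hq hqN hq0] at h

/-- **(i)** If `χ(U_q)² = 1` then the Steinberg relation holds with sign `χ(U_q)`. -/
theorem stRel_of_U_of_supp (hp : p.Prime) (hq : q.Prime) (hqp : q ≠ p) (hqN : q ∣ N)
    (hqN2 : ¬ q ^ 2 ∣ N) (hq0 : q ∉ S0) (hS0 : ∀ ℓ ∈ S0, ℓ ∈ S)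
    (hp𝒪 : (p : 𝒪) ∈ maximalIdeal 𝒪) (χ : CuspForm.heckeAlgebra N 2 S0 →+* 𝒪)
    (hsupp : SuppAt N p S0 χ) (ρ : GaloisRepAdic 𝒪)
    (hρ : ∀ (ℓ : ℕ) (hℓ : ℓ.Prime) (hℓN : ¬ ℓ ∣ N) (hℓ0 : ℓ ∉ S0), ℓ ∉ S →
      ∀ A : ValuationSubring Qbar, A.LiesOverPrime ℓ → ∀ σ : Γℚ, A.IsFrobeniusAt σ ℓ →
        LinearMap.charpoly (ρ.ρ σ) =
          X ^ 2 - C (χ (CuspForm.heckeAlgebra.T hℓ hℓN hℓ0)) * X + C (ℓ : 𝒪))
    (he : χ (CuspForm.heckeAlgebra.U hq hqN hq0) * χ (CuspForm.heckeAlgebra.U hq hqN hq0) = 1)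
    {P : ValuationSubring Qbar} (hP : P.LiesOverPrime q) :
    StRel P q (χ (CuspForm.heckeAlgebra.U hq hqN hq0)) (fun g => LinearMap.det (ρ.ρ g))
      (fun g => ρ.ρ g) := by
  obtain ⟨φ, hφ⟩ := FrobExists.exists_isFrobeniusAt P hq hP
  have h := relation_U_of_supp hp hq hqp hqN hqN2 hq0 hS0 hp𝒪 χ hsupp ρ hρ hP hφ
  have D := trData_of (p := p) hS0 hp𝒪 hρ hsupp
  set u := χ (CuspForm.heckeAlgebra.U hq hqN hq0) with hu
  let b := Module.finBasisOfFinrankEq 𝒪 ρ.V ρ.finrank_eq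
  have htr : (matOf ρ b φ).trace = u * (q + 1) := by
    rw [matOf_apply, ← LinearMap.trace_eq_matrix_trace]
    linear_combination (-u) * h + (u - LinearMap.trace 𝒪 ρ.V (ρ.ρ φ)) * he
  exact stRel_of_matOf (b := b) ((D.locHyp hp hq hqp hqN hqN2 hP b).stRel he hφ htr)

/-- **(ii)** If `ρ` is ramified at `q ∥ N` then the Steinberg relation holds with a sign. -/
theorem exists_stRel_of_ramified (hp : p.Prime) (hq : q.Prime) (hqp : q ≠ p) (hqN : q ∣ N)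
    (hqN2 : ¬ q ^ 2 ∣ N) (hS0 : ∀ ℓ ∈ S0, ℓ ∈ S)
    (hp𝒪 : (p : 𝒪) ∈ maximalIdeal 𝒪) (χ : CuspForm.heckeAlgebra N 2 S0 →+* 𝒪)
    (ρ : GaloisRepAdic 𝒪)
    (hρ : ∀ (ℓ : ℕ) (hℓ : ℓ.Prime) (hℓN : ¬ ℓ ∣ N) (hℓ0 : ℓ ∉ S0), ℓ ∉ S →
      ∀ A : ValuationSubring Qbar, A.LiesOverPrime ℓ → ∀ σ : Γℚ, A.IsFrobeniusAt σ ℓ →
        LinearMap.charpoly (ρ.ρ σ) =
          X ^ 2 - C (χ (CuspForm.heckeAlgebra.T hℓ hℓN hℓ0)) * X + C (ℓ : 𝒪))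
    (hram : ¬ ρ.IsUnramifiedAt q) :
    ∃ e : ℤ, (e = 1 ∨ e = -1) ∧ ∀ P : ValuationSubring Qbar, P.LiesOverPrime q →
      StRel P q (e : 𝒪) (fun g => LinearMap.det (ρ.ρ g)) (fun g => ρ.ρ g) := by
  obtain ⟨χ', D⟩ := trData_anemic hp hS0 hp𝒪 hρ
  unfold GaloisRepAdic.IsUnramifiedAt at hram
  push_neg at hram
  obtain ⟨P, hP, τ, hτ, hne⟩ := hram
  obtain ⟨φ, hφ⟩ := FrobExists.exists_isFrobeniusAt P hq hP
  let b := Module.finBasisOfFinrankEq 𝒪 ρ.V ρ.finrank_eq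
  have H := D.locHyp hp hq hqp hqN hqN2 hP b
  have hne' : matOf ρ b τ ≠ 1 := by
    intro h
    rw [matOf_apply, ← LinearMap.toMatrix_one b] at h
    exact hne ((LinearMap.toMatrix b b).injective h)
  obtain ⟨e, he, htr⟩ := H.exists_sign hτ hne' hφ
  have key : ∀ c : ℤ, (c = 1 ∨ c = -1) → e = (c : 𝒪) → ∀ P' : ValuationSubring Qbar,
      P'.LiesOverPrime q →
      StRel P' q (c : 𝒪) (fun g => LinearMap.det (ρ.ρ g)) (fun g => ρ.ρ g) := by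
    intro c hc hec P' hP'
    have hcc : (c : 𝒪) * (c : 𝒪) = 1 := by
      rcases hc with rfl | rfl <;> norm_num
    rw [hec] at htr
    exact stRel_place hq hP hP' hcc (stRel_of_matOf (b := b) (H.stRel hcc hφ htr))
  rcases he with rfl | rfl
  · exact ⟨1, Or.inl rfl, key 1 (Or.inl rfl) (by norm_num)⟩
  · exact ⟨-1, Or.inr rfl, key (-1) (Or.inr rfl) (by norm_num)⟩

/-- **(R)** from full support. -/
theorem relation_U_of_full (hfull : FullSupport N) (hp : p.Prime) (hq : q.Prime) (hqp : q ≠ p)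
    (hqN : q ∣ N)
    (hqN2 : ¬ q ^ 2 ∣ N) (hq0 : q ∉ S0) (hS0 : ∀ ℓ ∈ S0, ℓ ∈ S)
    (hp𝒪 : (p : 𝒪) ∈ maximalIdeal 𝒪) (χ : CuspForm.heckeAlgebra N 2 S0 →+* 𝒪)
    (ρ : GaloisRepAdic 𝒪)
    (hρ : ∀ (ℓ : ℕ) (hℓ : ℓ.Prime) (hℓN : ¬ ℓ ∣ N) (hℓ0 : ℓ ∉ S0), ℓ ∉ S →
      ∀ A : ValuationSubring Qbar, A.LiesOverPrime ℓ → ∀ σ : Γℚ, A.IsFrobeniusAt σ ℓ →
        LinearMap.charpoly (ρ.ρ σ) =
          X ^ 2 - C (χ (CuspForm.heckeAlgebra.T hℓ hℓN hℓ0)) * X + C (ℓ : 𝒪))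
    {P : ValuationSubring Qbar} (hP : P.LiesOverPrime q) {φ : Γℚ} (hφ : P.IsFrobeniusAt φ q) :
    χ (CuspForm.heckeAlgebra.U hq hqN hq0) ^ 2 -
      LinearMap.trace 𝒪 ρ.V (ρ.ρ φ) * χ (CuspForm.heckeAlgebra.U hq hqN hq0) + (q : 𝒪) = 0 :=
  relation_U_of_supp hp hq hqp hqN hqN2 hq0 hS0 hp𝒪 χ (hfull.suppAt hp.pos χ) ρ hρ hP hφ

/-- **(i)** from full support. -/
theorem stRel_of_U_of_full (hfull : FullSupport N) (hp : p.Prime) (hq : q.Prime) (hqp : q ≠ p)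
    (hqN : q ∣ N)
    (hqN2 : ¬ q ^ 2 ∣ N) (hq0 : q ∉ S0) (hS0 : ∀ ℓ ∈ S0, ℓ ∈ S)
    (hp𝒪 : (p : 𝒪) ∈ maximalIdeal 𝒪) (χ : CuspForm.heckeAlgebra N 2 S0 →+* 𝒪)
    (ρ : GaloisRepAdic 𝒪)
    (hρ : ∀ (ℓ : ℕ) (hℓ : ℓ.Prime) (hℓN : ¬ ℓ ∣ N) (hℓ0 : ℓ ∉ S0), ℓ ∉ S →
      ∀ A : ValuationSubring Qbar, A.LiesOverPrime ℓ → ∀ σ : Γℚ, A.IsFrobeniusAt σ ℓ →
        LinearMap.charpoly (ρ.ρ σ) =
          X ^ 2 - C (χ (CuspForm.heckeAlgebra.T hℓ hℓN hℓ0)) * X + C (ℓ : 𝒪))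
    (he : χ (CuspForm.heckeAlgebra.U hq hqN hq0) * χ (CuspForm.heckeAlgebra.U hq hqN hq0) = 1)
    {P : ValuationSubring Qbar} (hP : P.LiesOverPrime q) :
    StRel P q (χ (CuspForm.heckeAlgebra.U hq hqN hq0)) (fun g => LinearMap.det (ρ.ρ g))
      (fun g => ρ.ρ g) :=
  stRel_of_U_of_supp hp hq hqp hqN hqN2 hq0 hS0 hp𝒪 χ (hfull.suppAt hp.pos χ) ρ hρ he hP

/-- Determinant of Frobenius and of inertia: an attached representation has `det = q` on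
Frobenius elements at `q ≠ p` (any `q`, including those dividing the level). -/
theorem det_frobenius (hp : p.Prime) (hq : q.Prime) (hqp : q ≠ p) (hS0 : ∀ ℓ ∈ S0, ℓ ∈ S)
    (hp𝒪 : (p : 𝒪) ∈ maximalIdeal 𝒪) (χ : CuspForm.heckeAlgebra N 2 S0 →+* 𝒪)
    (ρ : GaloisRepAdic 𝒪)
    (hρ : ∀ (ℓ : ℕ) (hℓ : ℓ.Prime) (hℓN : ¬ ℓ ∣ N) (hℓ0 : ℓ ∉ S0), ℓ ∉ S →
      ∀ A : ValuationSubring Qbar, A.LiesOverPrime ℓ → ∀ σ : Γℚ, A.IsFrobeniusAt σ ℓ →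
        LinearMap.charpoly (ρ.ρ σ) =
          X ^ 2 - C (χ (CuspForm.heckeAlgebra.T hℓ hℓN hℓ0)) * X + C (ℓ : 𝒪))
    {P : ValuationSubring Qbar} (hP : P.LiesOverPrime q) {φ : Γℚ} (hφ : P.IsFrobeniusAt φ q) :
    LinearMap.det (ρ.ρ φ) = (q : 𝒪) := by
  haveI : Fact p.Prime := ⟨hp⟩
  obtain ⟨χ', D⟩ := trData_anemic hp hS0 hp𝒪 hρ
  exact D.det_frob hq hqp hP hφ

end Main

end Fermat.Agent.P2.LocQ
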