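import Fermat.Agent.P2.Defs
import Fermat.Agent.TWP.FlatLoc.FrobDec

set_option autoImplicit false
set_option linter.style.haveILetI false

/-!
# The unramified quadratic character `eta`

`eta P q e (φ^n τ) = e^n` for a Frobenius `φ` and `τ` in the inertia group; `eta` is locally
constant on the decomposition group.
-/

open Pointwise

namespace Fermat.Agent.P2.LocQ

open FrobExists

local notation "Ω" => AlgebraicClosure ℚ
local notation "GQ" => (AlgebraicClosure ℚ ≃ₐ[ℚ] AlgebraicClosure ℚ)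

variable {P : ValuationSubring Ω} {q : ℕ}

theorem mem_dec_of_inertia {τ : GQ} (hτ : τ ∈ P.inertiaSubgroupIn ℚ) :
    τ ∈ P.decompositionSubgroup ℚ := by
  obtain ⟨g, -, rfl⟩ := hτ
  exact g.2

theorem inertia_smul {τ : GQ} (hτ : τ ∈ P.inertiaSubgroupIn ℚ)
    (x : IsLocalRing.ResidueField P) :
    (⟨τ, mem_dec_of_inertia hτ⟩ : P.decompositionSubgroup ℚ) • x = x := by
  obtain ⟨g, hg, rfl⟩ := hτ
  have h1 : MulSemiringAction.toRingAut (P.decompositionSubgroup ℚ)
      (IsLocalRing.ResidueField P) g = 1 := MonoidHom.mem_ker.mp hg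
  exact RingEquiv.congr_fun h1 x

theorem word_mem {φ τ : GQ} (hφ : P.IsFrobeniusAt φ q) (hτ : τ ∈ P.inertiaSubgroupIn ℚ) (n : ℕ) :
    φ ^ n * τ ∈ P.decompositionSubgroup ℚ :=
  mul_mem (pow_mem hφ.mem_decompositionSubgroup n) (mem_dec_of_inertia hτ)

theorem word_smul {φ τ : GQ} (hφ : P.IsFrobeniusAt φ q) (hτ : τ ∈ P.inertiaSubgroupIn ℚ) (n : ℕ)
    (x : IsLocalRing.ResidueField P) :
    (⟨φ ^ n * τ, word_mem hφ hτ n⟩ : P.decompositionSubgroup ℚ) • x = x ^ q ^ n := by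
  have h1 : (⟨φ ^ n * τ, word_mem hφ hτ n⟩ : P.decompositionSubgroup ℚ) =
      (⟨φ, hφ.mem_decompositionSubgroup⟩ : P.decompositionSubgroup ℚ) ^ n *
        ⟨τ, mem_dec_of_inertia hτ⟩ := Subtype.ext rfl
  rw [h1, mul_smul, inertia_smul hτ]
  induction n with
  | zero => rw [pow_zero, one_smul, pow_zero, pow_one]
  | succ n ih =>
    have h2 : (⟨φ ^ n * τ, word_mem hφ hτ n⟩ : P.decompositionSubgroup ℚ) =
      (⟨φ, hφ.mem_decompositionSubgroup⟩ : P.decompositionSubgroup ℚ) ^ n *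
        ⟨τ, mem_dec_of_inertia hτ⟩ := Subtype.ext rfl
    rw [pow_succ', mul_smul, ih h2, hφ.smul_residue_eq, ← pow_mul, pow_succ]

/-- an element of `𝔽_{q²}` outside `𝔽_q` -/
theorem exists_not_fixed (hq : q.Prime) (hP : P.LiesOverPrime q) :
    ∃ x : IsLocalRing.ResidueField P, x ^ q ^ 2 = x ∧ x ^ q ≠ x := by
  haveI : Fact q.Prime := ⟨hq⟩
  haveI : CharP (IsLocalRing.ResidueField P) q := ResField.charP_residueField (A := P) hq hP
  haveI : IsAlgClosed (IsLocalRing.ResidueField P) := inferInstance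
  have h2 : 2 ≤ q := hq.two_le
  have hn : ((q ^ 2 - 1 : ℕ) : IsLocalRing.ResidueField P) ≠ 0 := by
    rw [Ne, CharP.cast_eq_zero_iff (IsLocalRing.ResidueField P) q]
    intro h
    have h3 : q ∣ q ^ 2 := dvd_pow_self q two_ne_zero
    have h4 : q ^ 2 - (q ^ 2 - 1) = 1 := by
      have : 1 ≤ q ^ 2 := Nat.one_le_pow _ _ hq.pos
      omega
    have h5 := Nat.dvd_sub h3 h
    rw [h4] at h5
    exact hq.one_lt.ne' (Nat.dvd_one.mp h5)
  haveI : NeZero ((q ^ 2 - 1 : ℕ) : IsLocalRing.ResidueField P) := ⟨hn⟩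
  obtain ⟨x, hx⟩ := HasEnoughRootsOfUnity.exists_primitiveRoot (IsLocalRing.ResidueField P)
    (q ^ 2 - 1)
  have hpos : 1 ≤ q ^ 2 := Nat.one_le_pow _ _ hq.pos
  have hx0 : x ≠ 0 := by
    rintro rfl
    have h3 := hx.pow_eq_one
    rw [zero_pow] at h3
    · exact zero_ne_one h3
    · intro h0
      rw [h0, Nat.cast_zero] at hn
      exact hn rfl
  refine ⟨x, ?_, fun h => ?_⟩
  · have h3 : x ^ q ^ 2 = x ^ (q ^ 2 - 1) * x := by
      rw [← pow_succ, Nat.sub_add_cancel hpos]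
    rw [h3, hx.pow_eq_one, one_mul]
  · have h3 : x ^ (q - 1) * x = 1 * x := by
      rw [← pow_succ, Nat.sub_add_cancel hq.one_le, h, one_mul]
    have h4 := mul_right_cancel₀ hx0 h3
    have h5 := Nat.le_of_dvd (by omega) (hx.dvd_of_pow_eq_one _ h4)
    have h6 : q * 2 ≤ q ^ 2 := by rw [sq]; exact Nat.mul_le_mul_left q h2
    omega

theorem isOddAt_word (hq : q.Prime) (hP : P.LiesOverPrime q) {φ τ : GQ}
    (hφ : P.IsFrobeniusAt φ q) (hτ : τ ∈ P.inertiaSubgroupIn ℚ) (n : ℕ) :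
    IsOddAt P q (φ ^ n * τ) ↔ Odd n := by
  have hpow : ∀ (x : IsLocalRing.ResidueField P), x ^ q ^ 2 = x → ∀ m : ℕ,
      x ^ q ^ (2 * m) = x := by
    intro x hx m
    induction m with
    | zero => rw [mul_zero, pow_zero, pow_one]
    | succ m ih =>
      rw [mul_add, mul_one, pow_add, pow_mul, ih, hx]
  constructor
  · rintro ⟨hg, x, hx, hne⟩
    by_contra hodd
    rw [Nat.not_odd_iff_even] at hodd
    obtain ⟨m, rfl⟩ := hodd
    apply hne
    have h2 : x ^ q ^ (m + m) = x := by rw [← two_mul]; exact hpow x hx m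
    exact (word_smul hφ hτ (m + m) x).trans h2
  · rintro ⟨m, rfl⟩
    obtain ⟨x, hx, hne⟩ := exists_not_fixed hq hP
    refine ⟨word_mem hφ hτ _, x, hx, ?_⟩
    rw [word_smul hφ hτ, pow_add, pow_one, pow_mul, hpow x hx]
    exact hne

theorem eta_word {A : Type*} [CommRing A] {e : A} (he : e * e = 1) (hq : q.Prime)
    (hP : P.LiesOverPrime q) {φ τ : GQ}
    (hφ : P.IsFrobeniusAt φ q) (hτ : τ ∈ P.inertiaSubgroupIn ℚ) (n : ℕ) :
    eta P q e (φ ^ n * τ) = e ^ n := by
  classical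
  have h2 : ∀ m : ℕ, e ^ (2 * m) = 1 := fun m => by rw [pow_mul, sq, he, one_pow]
  unfold eta
  by_cases h : Odd n
  · rw [if_pos ((isOddAt_word hq hP hφ hτ n).mpr h)]
    obtain ⟨m, rfl⟩ := h
    rw [pow_add, pow_one, h2, one_mul]
  · rw [if_neg (fun h' => h ((isOddAt_word hq hP hφ hτ n).mp h'))]
    rw [Nat.not_odd_iff_even] at h
    obtain ⟨m, rfl⟩ := h
    rw [← two_mul, h2]

/-- `IsOddAt` is locally constant on the decomposition group. -/
theorem exists_level_odd (P : ValuationSubring Ω) {q : ℕ} (hq : q.Prime) :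
    ∃ L : IntermediateField ℚ Ω, FiniteDimensional ℚ L ∧
      ∀ g ∈ P.decompositionSubgroup ℚ, ∀ g' ∈ P.decompositionSubgroup ℚ,
        (∀ x ∈ L, g x = g' x) → (IsOddAt P q g ↔ IsOddAt P q g') := by
  classical
  have h1 : 1 < q ^ 2 := Nat.one_lt_pow two_ne_zero hq.one_lt
  have hfin : {x : IsLocalRing.ResidueField P | x ^ q ^ 2 = x}.Finite := by
    have hne : (Polynomial.X ^ q ^ 2 - Polynomial.X :
        Polynomial (IsLocalRing.ResidueField P)) ≠ 0 :=
      FiniteField.X_pow_card_sub_X_ne_zero _ h1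
    refine (Polynomial.finite_setOf_isRoot hne).subset fun x hx => ?_
    rw [Set.mem_setOf_eq] at hx
    rw [Set.mem_setOf_eq, Polynomial.IsRoot.def, Polynomial.eval_sub, Polynomial.eval_pow,
      Polynomial.eval_X, hx, sub_self]
  choose y hy using IsLocalRing.residue_surjective (R := P)
  refine ⟨IntermediateField.adjoin ℚ ((fun x => (y x : Ω)) ''
    {x : IsLocalRing.ResidueField P | x ^ q ^ 2 = x}), ?_, ?_⟩
  · haveI := (hfin.image (fun x => (y x : Ω))).to_subtype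
    exact IntermediateField.finiteDimensional_adjoin fun x _ =>
      (Algebra.IsAlgebraic.isAlgebraic x).isIntegral
  · have key : ∀ (g g' : P.decompositionSubgroup ℚ),
        (∀ x ∈ IntermediateField.adjoin ℚ ((fun x => (y x : Ω)) ''
          {x : IsLocalRing.ResidueField P | x ^ q ^ 2 = x}), (g : GQ) x = (g' : GQ) x) →
        ∀ x : IsLocalRing.ResidueField P, x ^ q ^ 2 = x → g • x = g' • x := by
      intro g g' h x hx
      have h2 : g • (y x) = g' • (y x) := Subtype.ext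
        (h _ (IntermediateField.subset_adjoin _ _ ⟨x, hx, rfl⟩))
      have h3 : g • (IsLocalRing.residue P (y x)) = g' • (IsLocalRing.residue P (y x)) := by
        rw [← IsLocalRing.ResidueField.residue_smul, ← IsLocalRing.ResidueField.residue_smul, h2]
      rwa [hy] at h3
    intro g hg g' hg' h
    constructor
    · rintro ⟨_, x, hx, hne⟩
      exact ⟨hg', x, hx, by rwa [← key ⟨g, hg⟩ ⟨g', hg'⟩ h x hx]⟩
    · rintro ⟨_, x, hx, hne⟩
      exact ⟨hg, x, hx, by rwa [key ⟨g, hg⟩ ⟨g', hg'⟩ h x hx]⟩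

theorem eta_congr {A : Type*} [One A] {e : A} {g g' : GQ}
    (h : IsOddAt P q g ↔ IsOddAt P q g') : eta P q e g = eta P q e g' := by
  classical
  unfold eta
  by_cases h1 : IsOddAt P q g
  · rw [if_pos h1, if_pos (h.mp h1)]
  · rw [if_neg h1, if_neg fun h2 => h1 (h.mpr h2)]

end Fermat.Agent.P2.LocQ
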