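import Fermat.Agent.P2.LocQ.Geo
import Fermat.Agent.CMP.Transfer
import Fermat.Agent.DR.S34Wiring
import Fermat.Agent.DR.AllInputs

set_option autoImplicit false
set_option linter.style.haveILetI false
set_option linter.unusedSectionVars false

/-!
# From the torsion of `J₀(N)` to the attached representation

`χ(U_q)² - tr ρ(φ) χ(U_q) + q = 0` at `q ∥ N`.
-/

noncomputable section

open Polynomial IsLocalRing ModularCurve

namespace Fermat.Agent.P2.LocQ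

open Fermat.Agent.DR.S34Algebra Fermat.Agent.DR.S34Wiring Fermat.Agent.S30Assembly
open Fermat.Agent.Cyclotomic Fermat.Agent.CMP

local notation "Qbar" => AlgebraicClosure ℚ
local notation "Γℚ" => (AlgebraicClosure ℚ ≃ₐ[ℚ] AlgebraicClosure ℚ)

/-- If a Hecke polynomial kills `J₀(N)[p^n]`, its value at `χ` is divisible by `p^n`. -/
def SuppAt (N p : ℕ) [NeZero N] (S0 : Set ℕ) {𝒪 : Type} [CommRing 𝒪]
    (χ : CuspForm.heckeAlgebra N 2 S0 →+* 𝒪) : Prop :=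
  letI := heckeModuleBar N
  ∀ (n : ℕ) (t : HeckeS S0), (∀ x : JZero N, p ^ n • x = 0 → toHecke S0 t • x = 0) →
    (p : 𝒪) ^ n ∣ χ (evalS N S0 t)

/-- **Full support** (all primes, including those dividing the level). -/
def FullSupport (N : ℕ) [NeZero N] : Prop :=
  letI := heckeModuleBar N
  ∃ (P : Type) (_ : AddCommGroup P) (_ : Module HeckeAlg P) (_ : Module.Finite ℤ P)
    (_ : Module.Free ℤ P),
    (∀ a : HeckeAlg, (∀ x : P, a • x = 0) → CuspForm.heckeEvalForms N 2 a = 0) ∧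
    ∀ m : ℕ, 0 < m → ∀ a : HeckeAlg, (∀ x : JZero N, m • x = 0 → a • x = 0) →
      ∀ x : P, ∃ y : P, a • x = m • y

theorem FullSupport.suppAt {N : ℕ} [NeZero N] (h : FullSupport N) {p : ℕ} (hp : 0 < p)
    {S0 : Set ℕ} {𝒪 : Type} [CommRing 𝒪] [IsDomain 𝒪] [IsIntegrallyClosed 𝒪] [CharZero 𝒪]
    (χ : CuspForm.heckeAlgebra N 2 S0 →+* 𝒪) : SuppAt N p S0 χ := by
  obtain ⟨P, _, _, _, _, h1, h2⟩ := h
  intro n t ht
  let _ : Module (HeckeS S0) P := Module.compHom P (toHecke S0)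
  have h3 := Fermat.Agent.DR.Support.mem_span_of_forall_dvd (R := HeckeS S0) (H := P) (χ.comp (evalS N S0))
    (fun a ha => by
      rw [RingHom.comp_apply, evalS_eq_zero N S0 (h1 (toHecke S0 a) ha), map_zero])
    (p ^ n) (by exact_mod_cast pow_ne_zero n (Nat.cast_ne_zero.mpr hp.ne')) t
    (fun x => h2 (p ^ n) (pow_pos hp n) (toHecke S0 t) ht x)
  rwa [RingHom.comp_apply, Nat.cast_pow, Ideal.mem_span_singleton] at h3

theorem suppAt_anemic {N p : ℕ} [NeZero N] {S : Finset ℕ} (I : S30Wiring.Inputs N p S)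
    (hNS : ∀ r : ℕ, r.Prime → r ∣ N → r ∈ S)
    {𝒪 : Type} [CommRing 𝒪] [IsDomain 𝒪] [IsDiscreteValuationRing 𝒪] [CharZero 𝒪]
    (χ : CuspForm.heckeAlgebra N 2 (↑S : Set ℕ) →+* 𝒪) : SuppAt N p (↑S : Set ℕ) χ := by
  intro n t ht
  have h1 := I.support hNS 𝒪 χ n (toAnemic S t) (fun x hx => by
    rw [anemicIncl_toAnemic]
    exact ht x hx)
  rwa [anemicEval_toAnemic] at h1

/-- A representation attached to a character of the Hecke algebra, with support. -/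
structure TrData (N p : ℕ) [NeZero N] (S0 : Set ℕ) (S : Finset ℕ) {𝒪 : Type} [CommRing 𝒪]
    [IsLocalRing 𝒪] (χ : CuspForm.heckeAlgebra N 2 S0 →+* 𝒪) (ρ : GaloisRepAdic 𝒪) : Prop where
  hpS : p ∈ S
  hNS : ∀ r : ℕ, r.Prime → r ∣ N → r ∈ S
  hS0 : ∀ ℓ ∈ S0, ℓ ∈ S
  hp𝒪 : (p : 𝒪) ∈ maximalIdeal 𝒪
  frob : ∀ (ℓ : ℕ) (hℓ : ℓ.Prime) (hℓN : ¬ ℓ ∣ N) (hℓ0 : ℓ ∉ S0), ℓ ∉ S →
    ∀ A : ValuationSubring Qbar, A.LiesOverPrime ℓ → ∀ σ : Γℚ, A.IsFrobeniusAt σ ℓ →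
      LinearMap.charpoly (ρ.ρ σ) =
        X ^ 2 - C (χ (CuspForm.heckeAlgebra.T hℓ hℓN hℓ0)) * X + C (ℓ : 𝒪)
  supp : SuppAt N p S0 χ

/-- the generators -/
def gensS (S0 : Set ℕ) (ℓ : ℕ) : HeckeS S0 :=
  open Classical in
  if h : ∃ hℓ : ℓ.Prime, ((⟨ℓ, hℓ⟩ : Nat.Primes) : ℕ) ∉ S0 then
    MvPolynomial.X ⟨⟨ℓ, h.choose⟩, h.choose_spec⟩ else 0

theorem gensS_eq {S0 : Set ℕ} (ℓ : ℕ) (hℓ : ℓ.Prime) (hℓS : ℓ ∉ S0) :
    gensS S0 ℓ = MvPolynomial.X ⟨⟨ℓ, hℓ⟩, hℓS⟩ := by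
  classical
  exact dif_pos ⟨hℓ, hℓS⟩

section

variable {N p : ℕ} [NeZero N] [hp : Fact p.Prime] {S0 : Set ℕ} {S : Finset ℕ} {𝒪 : Type}
  [CommRing 𝒪] [IsLocalRing 𝒪] {χ : CuspForm.heckeAlgebra N 2 S0 →+* 𝒪} {ρ : GaloisRepAdic 𝒪}

theorem TrData.represents (D : TrData N p S0 S χ ρ) (n : ℕ) (g : Γℚ) :
    letI := heckeModuleBar N
    ∃ a : HeckeS S0, (∀ x : JZero N, p ^ n • x = 0 →
        toHecke S0 a • x = g • x + e p n g • (g⁻¹ • x)) ∧
      LinearMap.trace 𝒪 ρ.V (ρ.ρ g) - χ (evalS N S0 a) ∈ maximalIdeal 𝒪 ^ n ∧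
      LinearMap.det (ρ.ρ g) - (e p n g : 𝒪) ∈ maximalIdeal 𝒪 ^ n := by
  letI := heckeModuleBar N
  have I : S30Wiring.Inputs N p S := GAL.Final.s30_inputs DR.allInputs p N S
  haveI : SMulCommClass Γℚ HeckeAlg (JZero N) := I.galois_hecke
  letI : Module (HeckeS S0) (JZero N) := Module.compHom (JZero N) (toHecke S0)
  have hsmul : ∀ (a : HeckeS S0) (x : JZero N), a • x = toHecke S0 a • x := fun _ _ => rfl
  have hfrob : FrobeniusQuadratic (K := ℚ) (L := Qbar) N p (JZero N) :=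
    S30Wiring.frobeniusQuadratic_of_specialization (I.specialization I.galois_hecke)
  have hdvd : ∀ ℓ : ℕ, ℓ.Prime → ℓ ∉ S → ¬ ℓ ∣ N * p := by
    intro ℓ hℓ hℓS h
    rcases (Nat.Prime.dvd_mul hℓ).mp h with h | h
    · exact hℓS (D.hNS ℓ hℓ h)
    · rw [(Nat.prime_dvd_prime_iff_eq hℓ Fact.out).mp h] at hℓS
      exact hℓS D.hpS
  have hsm : ∀ x : JZero N, ∃ L : IntermediateField ℚ Qbar, FiniteDimensional ℚ L ∧
      ∀ g : Γℚ, (∀ y ∈ L, g y = y) → g • x = x := I.smooth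
  exact Transfer.exists_represents_trace (A := HeckeS S0) (M := JZero N) (p := p) S (gensS S0)
    (fun n => Fermat.Agent.S30Wiring.finite_level_of_smooth (J := JZero N) hsm n (I.finite n))
    (by
      intro ℓ hℓ hℓS B hB σ hσ m hm
      have h := hfrob ℓ hℓ (hdvd ℓ hℓ hℓS) B hB σ hσ m hm
      rw [gensS_eq ℓ hℓ (fun h => hℓS (D.hS0 ℓ h)), hsmul, toHecke_X]
      exact h)
    D.hp𝒪 (χ.comp (evalS N S0)) ρ
    (by
      intro ℓ hℓ hℓS B hB σ hσ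
      have hℓN : ¬ ℓ ∣ N := fun h => hℓS (D.hNS ℓ hℓ h)
      have hℓ0 : ℓ ∉ S0 := fun h => hℓS (D.hS0 ℓ h)
      rw [D.frob ℓ hℓ hℓN hℓ0 hℓS B hB σ hσ, gensS_eq ℓ hℓ hℓ0, RingHom.comp_apply,
        evalS_X_of_not_dvd hℓ hℓN hℓ0]) n g

variable [IsNoetherianRing 𝒪]

theorem cast_sub_mem (hp𝒪 : (p : 𝒪) ∈ maximalIdeal 𝒪) {n a b : ℕ}
    (h : ((a : ℕ) : ZMod (p ^ n)) = (b : ℕ)) : (a : 𝒪) - (b : 𝒪) ∈ maximalIdeal 𝒪 ^ n := by
  obtain ⟨y, hy⟩ := pow_dvd_of_zmod_eq (R := 𝒪) h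
  rw [hy]
  exact Ideal.mul_mem_right _ _ (Ideal.pow_mem_pow hp𝒪 n)

theorem not_dvd_pow {q : ℕ} (hq : q.Prime) (hqp : q ≠ p) (n : ℕ) : ¬ q ∣ p ^ n := fun h =>
  hqp ((Nat.prime_dvd_prime_iff_eq hq Fact.out).mp (hq.dvd_of_dvd_pow h))

/-- `det ρ(φ) = q`. -/
theorem TrData.det_frob (D : TrData N p S0 S χ ρ) {q : ℕ} (hq : q.Prime) (hqp : q ≠ p)
    {B : ValuationSubring Qbar} (hB : B.LiesOverPrime q) {φ : Γℚ} (hφ : B.IsFrobeniusAt φ q) :
    LinearMap.det (ρ.ρ φ) = (q : 𝒪) := by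
  rw [← sub_eq_zero]
  refine FrobCompare.eq_zero_of_forall_mem_pow fun n => ?_
  obtain ⟨a, -, -, hdet⟩ := D.represents n φ
  have he : ((e p n φ : ℕ) : ZMod (p ^ n)) = (q : ℕ) := by
    rw [e_cast, cyc_frobenius hq (not_dvd_pow hq hqp n) B hB hφ]
  have h2 := Ideal.add_mem _ hdet (cast_sub_mem D.hp𝒪 he)
  rwa [sub_add_sub_cancel] at h2

theorem e_inertia {q : ℕ} (hq : q.Prime) (hqp : q ≠ p) {B : ValuationSubring Qbar}
    (hB : B.LiesOverPrime q) {τ : Γℚ} (hτ : τ ∈ B.inertiaSubgroupIn ℚ) (n : ℕ) :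
    ((e p n τ : ℕ) : ZMod (p ^ n)) = (1 : ℕ) := by
  haveI : NeZero (p ^ n) := ⟨pow_ne_zero n (Fact.out : p.Prime).ne_zero⟩
  rw [e_cast, cyc_inertia hq (not_dvd_pow hq hqp n) B hB hτ]
  simp

/-- `det ρ = 1` on inertia. -/
theorem TrData.det_inertia (D : TrData N p S0 S χ ρ) {q : ℕ} (hq : q.Prime) (hqp : q ≠ p)
    {B : ValuationSubring Qbar} (hB : B.LiesOverPrime q) {τ : Γℚ}
    (hτ : τ ∈ B.inertiaSubgroupIn ℚ) : LinearMap.det (ρ.ρ τ) = 1 := by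
  rw [← sub_eq_zero]
  refine FrobCompare.eq_zero_of_forall_mem_pow fun n => ?_
  obtain ⟨a, -, -, hdet⟩ := D.represents n τ
  have h2 := Ideal.add_mem _ hdet (cast_sub_mem D.hp𝒪 (e_inertia hq hqp hB hτ n))
  rwa [sub_add_sub_cancel, Nat.cast_one] at h2

theorem mem_pow_of_dvd (hp𝒪 : (p : 𝒪) ∈ maximalIdeal 𝒪) {n : ℕ} {x : 𝒪}
    (h : (p : 𝒪) ^ n ∣ x) : x ∈ maximalIdeal 𝒪 ^ n := by
  obtain ⟨y, rfl⟩ := h
  exact Ideal.mul_mem_right _ _ (Ideal.pow_mem_pow hp𝒪 n)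

/-- `tr ρ = 2` on inertia. -/
theorem TrData.trace_inertia (D : TrData N p S0 S χ ρ) {q : ℕ} (hq : q.Prime) (hqp : q ≠ p)
    (hU : UnipotentInput p q (JZero N)) {B : ValuationSubring Qbar} (hB : B.LiesOverPrime q)
    {τ : Γℚ} (hτ : τ ∈ B.inertiaSubgroupIn ℚ) : LinearMap.trace 𝒪 ρ.V (ρ.ρ τ) = 2 := by
  letI := heckeModuleBar N
  rw [← sub_eq_zero]
  refine FrobCompare.eq_zero_of_forall_mem_pow fun n => ?_
  obtain ⟨a, ha, htr, -⟩ := D.represents n τ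
  have hkill : ∀ x : JZero N, p ^ n • x = 0 → toHecke S0 (a - 2) • x = 0 := by
    intro x hx
    have h1 := ha x hx
    have h2 : p ^ n • (τ⁻¹ • x) = 0 := nsmul_smul_gal hx
    rw [nsmul_congr (e_inertia hq hqp hB hτ n) h2, one_smul] at h1
    have h3 := hU B hB τ hτ (τ⁻¹ • x) ⟨n, h2⟩
    rw [smul_inv_smul] at h3
    rw [map_sub, sub_smul, h1, map_ofNat]
    have h4 : (2 : HeckeAlg) • x = 2 • x := by
      rw [← Nat.cast_smul_eq_nsmul HeckeAlg]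
      norm_num
    rw [h4, ← h3]
    abel
  have h5 := mem_pow_of_dvd D.hp𝒪 (D.supp n (a - 2) hkill)
  rw [map_sub, map_sub, map_ofNat, map_ofNat] at h5
  have h6 := Ideal.add_mem _ htr h5
  rwa [sub_add_sub_cancel] at h6

end

section KillAux

variable {G H J : Type*} [Group G] [CommRing H] [AddCommGroup J] [DistribMulAction G J]
  [Module H J] [SMulCommClass G H J]

theorem kill_aux (V T : H) (φ : G) (q m : ℕ)
    (hTx : ∀ x : J, m • x = 0 → T • x = V • V • x - (φ • V • x + q • (φ⁻¹ • V • x)) + q • x)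
    (hm : ∀ (x : J) (g : G), m • x = 0 → m • (g • x) = 0)
    (hVt : ∀ x : J, m • x = 0 → m • (V • x) = 0)
    (hnat : ∀ (g : G) (x : J), g • (q • x) = q • (g • x)) (x : J) (hx : m • x = 0)
    (hrel : φ • V • (φ • V • (V • x - φ • x) - q • (V • x - φ • x)) =
      q • (φ • V • (V • x - φ • x) - q • (V • x - φ • x))) : T • T • x = 0 := by
  have hcomm : ∀ (g : G) (x : J), V • g • x = g • V • x := fun g x => (smul_comm g V x).symm
  obtain ⟨z, hz⟩ : ∃ z, z = V • x - φ • x := ⟨_, rfl⟩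
  rw [← hz] at hrel
  obtain ⟨z', hz'⟩ : ∃ z', z' = φ • V • z - q • z := ⟨_, rfl⟩
  rw [← hz'] at hrel
  have hzt : m • z = 0 := by
    rw [hz, nsmul_sub, hVt x hx, hm x φ hx, sub_zero]
  have hz't : m • z' = 0 := by
    have h1 : m • (q • z) = 0 := by rw [smul_comm, hzt, smul_zero]
    rw [hz', nsmul_sub, hm _ φ (hVt z hzt), h1, sub_zero]
  have h3 : T • x = φ⁻¹ • z' := by
    rw [hTx x hx, hz', smul_sub, inv_smul_smul, hnat, hz, smul_sub, hcomm, smul_sub,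
      inv_smul_smul, nsmul_sub]
    abel
  have h4 : T • z' = 0 := by
    have h5 : V • z' = q • (φ⁻¹ • z') := by
      rw [← hnat, ← hrel, inv_smul_smul]
    have h6 : V • V • z' = q • (φ⁻¹ • V • z') := by
      conv_lhs => rw [h5]
      rw [smul_comm V q, hcomm]
    rw [hTx z' hz't, hrel, h6]
    abel
  have h7 : T • φ⁻¹ • z' = φ⁻¹ • T • z' := (smul_comm φ⁻¹ T z').symm
  rw [h3, h7, h4, smul_zero]

end KillAux

section RelU

variable {M p q : ℕ} [NeZero M] [hq : Fact q.Prime] [hp : Fact p.Prime] {S0 : Set ℕ}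
  {S : Finset ℕ} {𝒪 : Type} [CommRing 𝒪] [IsLocalRing 𝒪] [IsNoetherianRing 𝒪] [IsDomain 𝒪]
  {χ : CuspForm.heckeAlgebra (M * q) 2 S0 →+* 𝒪} {ρ : GaloisRepAdic 𝒪}

/-- **`χ(U_q)² - tr ρ(φ) χ(U_q) + q = 0`.** -/
theorem TrData.relation (D : TrData (M * q) p S0 S χ ρ) (hqM : ¬ q ∣ M) (hqp : q ≠ p)
    (hq0 : q ∉ S0) {B : ValuationSubring Qbar} (hB : B.LiesOverPrime q) {φ : Γℚ}
    (hφ : B.IsFrobeniusAt φ q) :
    χ (evalS (M * q) S0 (MvPolynomial.X ⟨⟨q, hq.out⟩, hq0⟩)) ^ 2 -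
      LinearMap.trace 𝒪 ρ.V (ρ.ρ φ) *
        χ (evalS (M * q) S0 (MvPolynomial.X ⟨⟨q, hq.out⟩, hq0⟩)) + (q : 𝒪) = 0 := by
  letI := heckeModuleBar (M * q)
  have I : S30Wiring.Inputs (M * q) p S := GAL.Final.s30_inputs DR.allInputs p (M * q) S
  haveI : SMulCommClass Γℚ HeckeAlg (JZero (M * q)) := I.galois_hecke
  set U : HeckeS S0 := MvPolynomial.X ⟨⟨q, hq.out⟩, hq0⟩ with hUdef
  set u : 𝒪 := χ (evalS (M * q) S0 U) with hu
  set tr : 𝒪 := LinearMap.trace 𝒪 ρ.V (ρ.ρ φ) with htrdef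
  have hsq : (u ^ 2 - tr * u + q) ^ 2 = 0 := by
    refine FrobCompare.eq_zero_of_forall_mem_pow fun n => ?_
    obtain ⟨a, ha, htr, -⟩ := D.represents n φ
    set V : HeckeAlg := heckeGen ⟨q, hq.out⟩ with hV
    have hVU : toHecke S0 U = V := toHecke_X S0 _
    have hop : ∀ x : JZero (M * q), V • x = heckeOperatorBar (M * q) ⟨q, hq.out⟩ x := fun x =>
      heckeModuleBar_heckeGen_smul (Fermat.Agent.JAN.Degree.heckeOperatorsCommuteBar (M * q)) _ x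
    have he : ((e p n φ : ℕ) : ZMod (p ^ n)) = (q : ℕ) := by
      rw [e_cast, cyc_frobenius hq.out (not_dvd_pow hq.out hqp n) B hB hφ]
    have ha' : ∀ x : JZero (M * q), p ^ n • x = 0 →
        toHecke S0 a • x = φ • x + q • (φ⁻¹ • x) := by
      intro x hx
      rw [ha x hx, nsmul_congr he (nsmul_smul_gal hx)]
    have hVt : ∀ x : JZero (M * q), p ^ n • x = 0 → p ^ n • (V • x) = 0 := by
      intro x hx
      rw [smul_comm, hx, smul_zero]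
    have hTx : ∀ x : JZero (M * q), p ^ n • x = 0 →
        toHecke S0 (U ^ 2 - a * U + (q : HeckeS S0)) • x =
          V • V • x - (φ • V • x + q • (φ⁻¹ • V • x)) + q • x := by
      intro x hx
      rw [map_add, map_sub, map_mul, map_pow, map_natCast, hVU, add_smul, sub_smul, mul_smul,
        pow_two, mul_smul, ha' _ (hVt x hx), Nat.cast_smul_eq_nsmul]
    have hkill : ∀ x : JZero (M * q), p ^ n • x = 0 →
        toHecke S0 ((U ^ 2 - a * U + (q : HeckeS S0)) ^ 2) • x = 0 := by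
      intro x hx
      rw [map_pow, pow_two, mul_smul]
      refine kill_aux (H := HeckeAlg) V _ φ q (p ^ n) hTx (fun x g hx => nsmul_smul_gal hx) hVt
        (fun g x => gal_nsmul g q x) x hx ?_
      have h := frob_hecke_relation M q hqM B hB hφ (not_dvd_pow hq.out hqp n) hx
        (z := V • x - φ • x) (z' := φ • V • (V • x - φ • x) - q • (V • x - φ • x))
        (by rw [hop]) (by rw [← hop])
      rwa [← hop] at h
    have h8 := mem_pow_of_dvd D.hp𝒪 (D.supp n _ hkill)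
    rw [map_pow, map_pow, map_add, map_add, map_sub, map_sub, map_mul, map_mul, map_pow, map_pow,
      map_natCast, map_natCast, ← hu] at h8
    have h9 : (u ^ 2 - tr * u + q) ^ 2 = (u ^ 2 - χ (evalS (M * q) S0 a) * u + q) ^ 2 -
        (tr - χ (evalS (M * q) S0 a)) * (u * ((u ^ 2 - tr * u + q) +
          (u ^ 2 - χ (evalS (M * q) S0 a) * u + q))) := by ring
    rw [h9]
    exact Ideal.sub_mem _ h8 (Ideal.mul_mem_right _ _ htr)
  exact pow_eq_zero_iff two_ne_zero |>.mp hsq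

end RelU

end Fermat.Agent.P2.LocQ
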